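import Fermat.Agent.RepTheory.AbsIrr

/-!
# Carayol's theorem: traces determine residually absolutely irreducible representations
-/

set_option autoImplicit false

open Polynomial TensorProduct

namespace FLTA.RepTheory

section General

variable {A : Type*} [CommRing A] {G : Type*} [Monoid G]
  {V : Type*} [AddCommGroup V] [Module A V] [Module.Free A V] [Module.Finite A V]
  {W : Type*} [AddCommGroup W] [Module A W] [Module.Free A W] [Module.Finite A W]

/-- The trace form on endomorphisms. -/
noncomputable def traceDual (A : Type*) [CommRing A] (V : Type*) [AddCommGroup V] [Module A V] :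
    Module.End A V →ₗ[A] Module.Dual A (Module.End A V) :=
  (LinearMap.mul A (Module.End A V)).compr₂ (LinearMap.trace A V)

theorem traceDual_apply (a b : Module.End A V) :
    traceDual A V a b = LinearMap.trace A V (a * b) := rfl

theorem traceDual_smulRight (a : Module.End A V) (f : V →ₗ[A] A) (x : V) :
    traceDual A V a (f.smulRight x) = f (a x) := by
  have h : a * f.smulRight x = f.smulRight (a x) := LinearMap.ext fun v => by simp
  rw [traceDual_apply, h, LinearMap.trace_smulRight]

theorem traceDual_bijective : Function.Bijective (traceDual A V) := by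
  let b := Module.Free.chooseBasis A V
  constructor
  · rw [injective_iff_map_eq_zero]
    intro a ha
    refine LinearMap.ext fun x => b.ext_elem fun i => ?_
    have h := traceDual_smulRight a (b.coord i) x
    rw [ha] at h
    simpa using h.symm
  · intro F
    refine ⟨{ toFun := fun v => ∑ i, F ((b.coord i).smulRight v) • b i
              map_add' := fun v w => ?_
              map_smul' := fun r v => ?_ }, ?_⟩
    · rw [← Finset.sum_add_distrib]
      refine Finset.sum_congr rfl fun i _ => ?_
      rw [← add_smul, ← map_add]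
      congr 2
      exact LinearMap.ext fun x => by simp
    · rw [RingHom.id_apply, Finset.smul_sum]
      refine Finset.sum_congr rfl fun i _ => ?_
      rw [show (b.coord i).smulRight (r • v) = r • (b.coord i).smulRight v from
        LinearMap.ext fun x => by simp [smul_comm r], map_smul, smul_assoc]
    · refine LinearMap.ext fun g => ?_
      have hg : g = ∑ j, (b.coord j).smulRight (g (b j)) := b.ext fun l => by
        simp [LinearMap.sum_apply, Finsupp.single_apply]
      rw [hg, map_sum, map_sum]
      refine Finset.sum_congr rfl fun j _ => ?_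
      rw [traceDual_smulRight]
      simp [Finsupp.single_apply]

/-- The algebra map from the monoid algebra attached to a representation. -/
noncomputable def repAlgHom (ρ : G →* Module.End A V) :
    MonoidAlgebra A G →ₐ[A] Module.End A V :=
  MonoidAlgebra.lift A _ G ρ

omit [Module.Free A V] [Module.Finite A V] in
theorem repAlgHom_of (ρ : G →* Module.End A V) (g : G) :
    repAlgHom ρ (MonoidAlgebra.of A G g) = ρ g := MonoidAlgebra.lift_of ρ g

omit [Module.Free A V] [Module.Finite A V] in
theorem repAlgHom_single (ρ : G →* Module.End A V) (g : G) :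
    repAlgHom ρ (MonoidAlgebra.single g 1) = ρ g := repAlgHom_of ρ g

omit [Module.Free A V] [Module.Finite A V] in
theorem repAlgHom_surjective {ρ : G →* Module.End A V} (h : Spans ρ) :
    Function.Surjective (repAlgHom ρ) := by
  intro f
  have hf : f ∈ Submodule.span A (Set.range ρ) := by rw [h]; trivial
  have : Submodule.span A (Set.range ρ) ≤ LinearMap.range (repAlgHom ρ).toLinearMap := by
    rw [Submodule.span_le]
    rintro _ ⟨g, rfl⟩
    exact ⟨_, repAlgHom_of ρ g⟩
  exact this hf

omit [Module.Free A V] [Module.Finite A V] in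
theorem spans_of_repAlgHom_surjective {ρ : G →* Module.End A V}
    (h : Function.Surjective (repAlgHom ρ)) : Spans ρ := by
  refine eq_top_iff.mpr fun f hf => ?_
  clear hf
  obtain ⟨c, rfl⟩ := h f
  induction c using MonoidAlgebra.induction_on with
  | of g => rw [repAlgHom_of]; exact Submodule.subset_span ⟨g, rfl⟩
  | add x y hx hy => rw [map_add]; exact Submodule.add_mem _ hx hy
  | smul r x hx => rw [map_smul]; exact Submodule.smul_mem _ r hx

omit [Module.Free A V] [Module.Finite A V] [Module.Free A W] [Module.Finite A W] in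
theorem trace_repAlgHom_eq {ρ : G →* Module.End A V} {ρ' : G →* Module.End A W}
    (ht : ∀ g, LinearMap.trace A V (ρ g) = LinearMap.trace A W (ρ' g)) (c : MonoidAlgebra A G) :
    LinearMap.trace A V (repAlgHom ρ c) = LinearMap.trace A W (repAlgHom ρ' c) := by
  induction c using MonoidAlgebra.induction_on with
  | of g => rw [repAlgHom_of, repAlgHom_of, ht]
  | add x y hx hy => simp only [map_add, hx, hy]
  | smul r x hx => simp only [map_smul, hx]

/-- Over a local ring an element outside `m • ⊤` of a free module has a unit coordinate. -/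
theorem exists_dual_eq_one [IsLocalRing A] {y : V}
    (hy : y ∉ IsLocalRing.maximalIdeal A • (⊤ : Submodule A V)) :
    ∃ ψ : V →ₗ[A] A, ψ y = 1 := by
  let b := Module.Free.chooseBasis A V
  by_cases h : ∃ i, IsUnit (b.coord i y)
  · obtain ⟨i, u, hu⟩ := h
    exact ⟨(↑u⁻¹ : A) • b.coord i, by rw [LinearMap.smul_apply, ← hu, smul_eq_mul, Units.inv_mul]⟩
  · push Not at h
    refine absurd ?_ hy
    rw [← b.sum_repr y]
    exact Submodule.sum_mem _ fun i _ =>
      Submodule.smul_mem_smul ((IsLocalRing.mem_maximalIdeal _).mpr (h i)) Submodule.mem_top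

theorem bijective_of_surjective_of_finrank_eq [Nontrivial A]
    (hr : Module.finrank A V = Module.finrank A W) {f : V →ₗ[A] W} (hf : Function.Surjective f) :
    Function.Bijective f := by
  obtain ⟨e⟩ := FiniteDimensional.nonempty_linearEquiv_of_finrank_eq hr
  exact OrzechProperty.bijective_of_surjective_of_injective e.toLinearMap f e.injective hf

/-- Carayol / Brauer-Nesbitt: a spanning representation over a local ring is determined by its
trace. Only one of the two representations is assumed to span. -/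
theorem exists_equiv_of_trace_eq [IsLocalRing A] {ρ : G →* Module.End A V}
    {ρ' : G →* Module.End A W} (h : Spans ρ)
    (hr : Module.finrank A V = Module.finrank A W)
    (ht : ∀ g, LinearMap.trace A V (ρ g) = LinearMap.trace A W (ρ' g)) :
    Spans ρ' ∧ ∃ e : V ≃ₗ[A] W, ∀ g x, e (ρ g x) = ρ' g (e x) := by
  obtain ⟨s, hs⟩ := Module.projective_lifting_property (repAlgHom ρ).toLinearMap LinearMap.id
    (repAlgHom_surjective h)
  replace hs : ∀ a, repAlgHom ρ (s a) = a := fun a => congr($hs a)
  let u : Module.End A V →ₗ[A] Module.End A W := (repAlgHom ρ').toLinearMap ∘ₗ s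
  have key : ∀ a c, LinearMap.trace A W (u a * repAlgHom ρ' c) =
      LinearMap.trace A V (a * repAlgHom ρ c) := by
    intro a c
    show LinearMap.trace A W (repAlgHom ρ' (s a) * repAlgHom ρ' c) = _
    rw [← map_mul, ← trace_repAlgHom_eq ht, map_mul, hs]
  have hfactor : (u.dualMap ∘ₗ traceDual A W) ∘ₗ u = traceDual A V := by
    refine LinearMap.ext fun a => LinearMap.ext fun a' => ?_
    show LinearMap.trace A W (u a * u a') = _
    rw [traceDual_apply, show u a' = repAlgHom ρ' (s a') from rfl, key, hs]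
  have hsurj : Function.Surjective (u.dualMap ∘ₗ traceDual A W) := fun F => by
    obtain ⟨a, ha⟩ := (traceDual_bijective (A := A) (V := V)).2 F
    exact ⟨u a, by rw [← ha, ← hfactor]; rfl⟩
  have hbij : Function.Bijective (u.dualMap ∘ₗ traceDual A W) := by
    refine bijective_of_surjective_of_finrank_eq ?_ hsurj
    simp [Module.finrank_linearMap, hr]
  have hu : Function.Bijective u := by
    have h2 : Function.Bijective ((u.dualMap ∘ₗ traceDual A W) ∘ u) := by
      convert traceDual_bijective (A := A) (V := V) using 1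
      exact congrArg (⇑) hfactor
    exact (Function.Bijective.of_comp_iff' hbij u).mp h2
  have hsurj' : Function.Surjective (repAlgHom ρ') := fun f => by
    obtain ⟨a, ha⟩ := hu.2 f
    exact ⟨s a, ha⟩
  have hπ : ∀ c, repAlgHom ρ' c = u (repAlgHom ρ c) := by
    intro c
    rw [← sub_eq_zero]
    apply (traceDual_bijective (A := A) (V := W)).1
    rw [map_zero]
    refine LinearMap.ext fun y => ?_
    obtain ⟨d, rfl⟩ := hsurj' y
    rw [traceDual_apply, sub_mul, map_sub, ← map_mul, key, ← map_mul, trace_repAlgHom_eq ht,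
      sub_self]
    rfl
  have hmul : ∀ a b, u (a * b) = u a * u b := fun a b => by
    obtain ⟨c, rfl⟩ := repAlgHom_surjective h a
    obtain ⟨d, rfl⟩ := repAlgHom_surjective h b
    rw [← map_mul, ← hπ, ← hπ, ← hπ, map_mul]
  refine ⟨spans_of_repAlgHom_surjective hsurj', ?_⟩
  let b := Module.Free.chooseBasis A V
  rcases isEmpty_or_nonempty (Module.Free.ChooseBasisIndex A V) with hempty | ⟨⟨i⟩⟩
  · obtain ⟨e⟩ := FiniteDimensional.nonempty_linearEquiv_of_finrank_eq hr
    have hV : ∀ x : V, x = 0 := fun x => b.ext_elem fun i => hempty.elim i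
    refine ⟨e, fun g x => ?_⟩
    rw [hV x, map_zero, map_zero, map_zero]
  · let P : Module.End A V := (b.coord i).smulRight (b i)
    have hP : P * P = P := LinearMap.ext fun v => by simp [P]
    have hP0 : P ≠ 0 := fun h0 => by
      have := congrArg (fun f : Module.End A V => b.coord i (f (b i))) h0
      simp [P] at this
    have hexists : ∃ w, u P w ∉ IsLocalRing.maximalIdeal A • (⊤ : Submodule A W) := by
      by_contra hcon
      push Not at hcon
      have hidem : u P * u P = u P := by rw [← hmul, hP]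
      have hle : LinearMap.range (u P) ≤ IsLocalRing.maximalIdeal A • LinearMap.range (u P) := by
        have h1 : Submodule.map (u P) (LinearMap.range (u P)) ≤
            Submodule.map (u P) (IsLocalRing.maximalIdeal A • ⊤) := by
          apply Submodule.map_mono
          rintro _ ⟨w, rfl⟩
          exact hcon w
        rw [Submodule.map_smul'', Submodule.map_top, ← LinearMap.range_comp,
          show u P ∘ₗ u P = u P from hidem] at h1
        exact h1
      have hfg : (LinearMap.range (u P)).FG := by
        rw [← Submodule.map_top]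
        exact Module.Finite.fg_top.map _
      have h0 := Submodule.eq_bot_of_le_smul_of_le_jacobson_bot _ _ hfg hle
        (IsLocalRing.maximalIdeal_le_jacobson _)
      rw [LinearMap.range_eq_bot] at h0
      exact hP0 (hu.1 (h0.trans (map_zero u).symm))
    obtain ⟨w, hw⟩ := hexists
    let f : V →ₗ[A] W :=
      { toFun := fun x => u ((b.coord i).smulRight x) w
        map_add' := fun x y => by
          rw [show (b.coord i).smulRight (x + y) =
            (b.coord i).smulRight x + (b.coord i).smulRight y from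
              LinearMap.ext fun v => by simp, map_add, LinearMap.add_apply]
        map_smul' := fun r x => by
          rw [show (b.coord i).smulRight (r • x) = r • (b.coord i).smulRight x from
            LinearMap.ext fun v => by simp [smul_comm r], map_smul]
          rfl }
    have hf : ∀ a x, f (a x) = u a (f x) := fun a x => by
      show u _ w = u a (u _ w)
      rw [show (b.coord i).smulRight (a x) = a * (b.coord i).smulRight x from
        LinearMap.ext fun v => by simp, hmul]
      rfl
    have hsf : Function.Surjective f := fun z => by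
      obtain ⟨ψ, hψ⟩ := exists_dual_eq_one hw
      obtain ⟨a, ha⟩ := hu.2 (ψ.smulRight z)
      refine ⟨a (b i), ?_⟩
      rw [hf, ha]
      show ψ (u P w) • z = z
      rw [hψ, one_smul]
    refine ⟨LinearEquiv.ofBijective f (bijective_of_surjective_of_finrank_eq hr hsf), fun g x => ?_⟩
    show f (ρ g x) = ρ' g (f x)
    rw [hf, ← repAlgHom_of ρ g, ← hπ, repAlgHom_of]

end General

section Adic

theorem span_residue_eq_top_iff {A : Type*} [CommRing A] [IsLocalRing A] {ι : Type*} [Fintype ι]
    [DecidableEq ι] (s : Set (Matrix ι ι A)) :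
    Submodule.span A s = ⊤ ↔ Submodule.span (IsLocalRing.ResidueField A)
      ((fun M => M.map (IsLocalRing.residue A)) '' s) = ⊤ := by
  let k := IsLocalRing.ResidueField A
  let red : Matrix ι ι A →ₗ[A] Matrix ι ι k := (Algebra.linearMap A k).mapMatrix
  have hspan : (Submodule.span k (red '' s)).restrictScalars A =
      (Submodule.span A s).map red := by
    rw [Submodule.map_span]
    exact Submodule.restrictScalars_span A k (IsLocalRing.residue_surjective) _
  have himg : (fun M : Matrix ι ι A => M.map (IsLocalRing.residue A)) '' s = red '' s := rfl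
  rw [himg]
  have hredsurj : Function.Surjective red := fun M => by
    choose g hg using fun a b => IsLocalRing.residue_surjective (M a b)
    exact ⟨Matrix.of g, Matrix.ext fun a b => hg a b⟩
  constructor
  · intro h
    apply Submodule.restrictScalars_injective A
    rw [hspan, h, Submodule.map_top, LinearMap.range_eq_top.mpr hredsurj,
      Submodule.restrictScalars_top]
  · intro h
    rw [h, Submodule.restrictScalars_top] at hspan
    refine eq_top_iff.mpr (Submodule.le_of_le_smul_of_le_jacobson_bot Module.Finite.fg_top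
      (IsLocalRing.maximalIdeal_le_jacobson _) fun M _ => ?_)
    have hM : red M ∈ (Submodule.span A s).map red := by rw [← hspan]; trivial
    obtain ⟨N, hN, hNM⟩ := hM
    refine Submodule.mem_sup.mpr ⟨N, hN, M - N, ?_, by abel⟩
    rw [Matrix.matrix_eq_sum_single (M - N)]
    refine Submodule.sum_mem _ fun a _ => Submodule.sum_mem _ fun b _ => ?_
    have hmem : (M - N) a b ∈ IsLocalRing.maximalIdeal A := by
      rw [← IsLocalRing.residue_eq_zero_iff, Matrix.sub_apply, map_sub, sub_eq_zero]
      exact (congr($hNM a b)).symm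
    simpa [Matrix.smul_single] using
      Submodule.smul_mem_smul (N := (⊤ : Submodule A (Matrix ι ι A))) hmem
        (Submodule.mem_top (x := Matrix.single a b (1 : A)))

variable {A : Type} [CommRing A] [IsLocalRing A]

theorem spans_iff_residual_isAbsolutelyIrreducible (ρ : GaloisRepAdic A) :
    Spans ρ.ρ ↔ ρ.residual.IsAbsolutelyIrreducible := by
  let b := Module.finBasisOfFinrankEq A ρ.V ρ.finrank_eq
  let k := IsLocalRing.ResidueField A
  rw [isAbsolutelyIrreducible_iff_spans, spans_iff_matHom b]
  refine Iff.trans ?_ (spans_iff_matHom (Algebra.TensorProduct.basis k b) ρ.residual.ρ).symm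
  have hr : Set.range (matHom (Algebra.TensorProduct.basis k b) ρ.residual.ρ) =
      (fun M => M.map (IsLocalRing.residue A)) '' Set.range (matHom b ρ.ρ) := by
    rw [← Set.range_comp]
    exact congrArg Set.range (funext fun g => LinearMap.toMatrix_baseChange k (ρ.ρ g) b b)
  rw [hr]
  exact span_residue_eq_top_iff _

/-- Carayol's theorem. -/
theorem isEquiv_of_trace_eq {ρ₁ ρ₂ : GaloisRepAdic A} (h : ρ₁.residual.IsAbsolutelyIrreducible)
    (ht : ∀ σ, ρ₁.trace σ = ρ₂.trace σ) : ρ₁.IsEquiv ρ₂ := by
  obtain ⟨-, e, he⟩ := exists_equiv_of_trace_eq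
    ((spans_iff_residual_isAbsolutelyIrreducible ρ₁).mpr h)
    (ρ₁.finrank_eq.trans ρ₂.finrank_eq.symm) ht
  exact ⟨⟨e, he⟩⟩

theorem isEquiv_of_charpoly_eq {ρ₁ ρ₂ : GaloisRepAdic A}
    (h : ρ₁.residual.IsAbsolutelyIrreducible)
    (hc : ∀ σ, (ρ₁.ρ σ).charpoly = (ρ₂.ρ σ).charpoly) : ρ₁.IsEquiv ρ₂ :=
  isEquiv_of_trace_eq h fun σ => (trace_eq_of_charpoly_eq ρ₁.finrank_eq ρ₂.finrank_eq (hc σ)).1

end Adic

section Residual

theorem det_add_eq {A : Type*} [CommRing A] [Nontrivial A] {V : Type*} [AddCommGroup V] [Module A V]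
    [Module.Free A V] [Module.Finite A V] (h : Module.finrank A V = 2) (a b : Module.End A V) :
    LinearMap.det (a + b) = LinearMap.det a + LinearMap.det b +
      LinearMap.trace A V a * LinearMap.trace A V b - LinearMap.trace A V (a * b) := by
  let e := Module.finBasisOfFinrankEq A V h
  rw [← LinearMap.det_toMatrix e, ← LinearMap.det_toMatrix e, ← LinearMap.det_toMatrix e,
    LinearMap.trace_eq_matrix_trace A e, LinearMap.trace_eq_matrix_trace A e,
    LinearMap.trace_eq_matrix_trace A e, LinearMap.toMatrix_mul, map_add]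
  simp only [Matrix.det_fin_two, Matrix.trace_fin_two, Matrix.mul_apply, Fin.sum_univ_two,
    Matrix.add_apply]
  ring

theorem det_repAlgHom_eq {A : Type*} [CommRing A] [Nontrivial A] {G : Type*} [Monoid G]
    {V : Type*} [AddCommGroup V] [Module A V] [Module.Free A V] [Module.Finite A V]
    {W : Type*} [AddCommGroup W] [Module A W] [Module.Free A W] [Module.Finite A W]
    (hV : Module.finrank A V = 2) (hW : Module.finrank A W = 2)
    {ρ : G →* Module.End A V} {ρ' : G →* Module.End A W}
    (ht : ∀ g, LinearMap.trace A V (ρ g) = LinearMap.trace A W (ρ' g))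
    (hd : ∀ g, LinearMap.det (ρ g) = LinearMap.det (ρ' g)) (c : MonoidAlgebra A G) :
    LinearMap.det (repAlgHom ρ c) = LinearMap.det (repAlgHom ρ' c) := by
  induction c using MonoidAlgebra.induction_on with
  | of g => rw [repAlgHom_of, repAlgHom_of, hd]
  | add x y hx hy =>
    rw [map_add (repAlgHom ρ), map_add (repAlgHom ρ'), det_add_eq hV, det_add_eq hW, hx, hy,
      ← map_mul (repAlgHom ρ), ← map_mul (repAlgHom ρ'), trace_repAlgHom_eq ht,
      trace_repAlgHom_eq ht, trace_repAlgHom_eq ht]
  | smul r x hx => rw [map_smul (repAlgHom ρ), map_smul (repAlgHom ρ'), LinearMap.det_smul, LinearMap.det_smul, hV, hW, hx]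

/-- In an irreducible non-spanning two dimensional representation, the only singular element of
the span is zero. -/
theorem eq_zero_of_det_repAlgHom_eq_zero {k : Type*} [Field k] {G : Type*} [Monoid G]
    {V : Type*} [AddCommGroup V] [Module k V] [Module.Finite k V]
    (hV : Module.finrank k V = 2) {ρ : G →* Module.End k V}
    (hirr : ∀ W : Submodule k V, (∀ g, ∀ x ∈ W, ρ g x ∈ W) → W = ⊥ ∨ W = ⊤)
    (hns : ¬ Spans ρ) {c : MonoidAlgebra k G} (hc : LinearMap.det (repAlgHom ρ c) = 0) :
    repAlgHom ρ c = 0 := by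
  by_contra hne
  apply hns
  let π := repAlgHom ρ
  let a := π c
  let S : Submodule k (Module.End k V) := LinearMap.range π.toLinearMap
  have hmul : ∀ {p q}, p ∈ S → q ∈ S → p * q ∈ S := by
    rintro _ _ ⟨x, rfl⟩ ⟨y, rfl⟩
    exact ⟨x * y, map_mul π x y⟩
  have hρS : ∀ g, ρ g ∈ S := fun g => ⟨_, repAlgHom_of ρ g⟩
  have hdim : Module.finrank k (LinearMap.range a) = 1 := by
    have h1 : Module.finrank k (LinearMap.range a) ≠ 0 := fun h0 =>
      hne (LinearMap.range_eq_bot.mp (Submodule.finrank_eq_zero.mp h0))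
    have hker : LinearMap.ker a ≠ ⊥ := LinearMap.det_eq_zero_iff_ker_ne_bot.mp hc
    have h2 := LinearMap.finrank_range_add_finrank_ker a
    have h3 : Module.finrank k (LinearMap.ker a) ≠ 0 := fun h0 =>
      hker (Submodule.finrank_eq_zero.mp h0)
    omega
  obtain ⟨⟨y, hy⟩, hy0, hspan⟩ := finrank_eq_one_iff'.mp hdim
  replace hy0 : y ≠ 0 := fun h => hy0 (Subtype.ext h)
  have hay : ∀ x, ∃ r : k, r • y = a x := fun x => by
    obtain ⟨r, hr⟩ := hspan ⟨a x, x, rfl⟩
    exact ⟨r, congrArg Subtype.val hr⟩
  choose φ hφ using hay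
  let φl : V →ₗ[k] k :=
    { toFun := φ
      map_add' := fun x z => smul_left_injective k hy0 (by simp [add_smul, hφ])
      map_smul' := fun r x => smul_left_injective k hy0 (by simp [mul_smul, hφ]) }
  -- all functionals `ψ` with `ψ ⊗ y ∈ S`
  let T : Submodule k (Module.Dual k V) :=
    S.comap ((LinearMap.smulRightₗ : _ →ₗ[k] _ →ₗ[k] Module.End k V).flip y)
  have hT : T = ⊤ := by
    by_contra hT
    obtain ⟨F, hF0, hF⟩ := Submodule.exists_le_ker_of_lt_top _ (lt_top_iff_ne_top.mpr hT)
    obtain ⟨v, rfl⟩ := (Module.evalEquiv k V).surjective F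
    let W : Submodule k V :=
      { carrier := {x | ∀ g, φl (ρ g x) = 0}
        add_mem' := fun {p q} hp hq g => by simp [hp g, hq g]
        zero_mem' := fun g => by simp
        smul_mem' := fun r x hx g => by simp [hx g] }
    have hφT : ∀ g, φl ∘ₗ ρ g ∈ T := fun g => by
      show (φl ∘ₗ ρ g).smulRight y ∈ S
      have : (φl ∘ₗ ρ g).smulRight y = a * ρ g := LinearMap.ext fun x => by
        simp [φl, hφ]
      rw [this]
      exact hmul ⟨c, rfl⟩ (hρS g)
    have hvW : v ∈ W := fun g => by simpa using hF (hφT g)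
    rcases hirr W (fun g x hx g' => by simpa [map_mul] using hx (g' * g)) with h | h
    · apply hF0
      rw [(Submodule.eq_bot_iff W).mp h v hvW, map_zero]
    · apply hne
      refine LinearMap.ext fun x => ?_
      have := (show x ∈ W from h ▸ Submodule.mem_top) 1
      rw [map_one, Module.End.one_apply] at this
      show a x = 0
      rw [← hφ x, show φ x = 0 from this, zero_smul]
  let U : Submodule k V :=
    { carrier := {x | ∀ ψ : V →ₗ[k] k, ψ.smulRight x ∈ S}
      add_mem' := fun {p q} hp hq ψ => by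
        rw [show ψ.smulRight (p + q) = ψ.smulRight p + ψ.smulRight q from
          LinearMap.ext fun v => by simp]
        exact S.add_mem (hp ψ) (hq ψ)
      zero_mem' := fun ψ => by
        rw [show ψ.smulRight (0 : V) = 0 from LinearMap.ext fun v => by simp]
        exact S.zero_mem
      smul_mem' := fun r x hx ψ => by
        rw [show ψ.smulRight (r • x) = r • ψ.smulRight x from
          LinearMap.ext fun v => by simp [smul_comm r]]
        exact S.smul_mem r (hx ψ) }
  have hyU : y ∈ U := fun ψ => by
    have : ψ ∈ T := hT ▸ Submodule.mem_top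
    exact this
  rcases hirr U (fun g x hx ψ => by
    rw [show ψ.smulRight (ρ g x) = ρ g * ψ.smulRight x from LinearMap.ext fun v => by simp]
    exact hmul (hρS g) (hx ψ)) with h | h
  · exact absurd ((Submodule.eq_bot_iff U).mp h y hyU) hy0
  · apply spans_of_repAlgHom_surjective
    intro f
    let b := Module.finBasis k V
    have hf : f = ∑ j, (b.coord j).smulRight (f (b j)) := b.ext fun l => by
      simp [LinearMap.sum_apply, Finsupp.single_apply]
    have : f ∈ S := by
      rw [hf]
      exact Submodule.sum_mem _ fun j _ => (show f (b j) ∈ U from h ▸ Submodule.mem_top) _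
    exact this

variable {k : Type} [Field k]

/-- Brauer-Nesbitt in the absolutely irreducible case. -/
theorem residual_isEquiv_of_trace_eq {ρ₁ ρ₂ : ResidualGaloisRep k}
    (h : ρ₁.IsAbsolutelyIrreducible)
    (ht : ∀ σ, LinearMap.trace k ρ₁.V (ρ₁.ρ σ) = LinearMap.trace k ρ₂.V (ρ₂.ρ σ)) :
    ρ₁.IsEquiv ρ₂ := by
  obtain ⟨-, e, he⟩ := exists_equiv_of_trace_eq ((isAbsolutelyIrreducible_iff_spans ρ₁).mp h)
    (ρ₁.finrank_eq.trans ρ₂.finrank_eq.symm) ht
  exact ⟨⟨e, he⟩⟩

theorem residual_isEquiv_of_charpoly_eq {ρ₁ ρ₂ : ResidualGaloisRep k}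
    (h : ρ₁.IsAbsolutelyIrreducible)
    (hc : ∀ σ, (ρ₁.ρ σ).charpoly = (ρ₂.ρ σ).charpoly) : ρ₁.IsEquiv ρ₂ :=
  residual_isEquiv_of_trace_eq h fun σ =>
    (trace_eq_of_charpoly_eq ρ₁.finrank_eq ρ₂.finrank_eq (hc σ)).1

/-- Brauer-Nesbitt for irreducible two dimensional representations. -/
theorem residual_isEquiv_of_isIrreducible {ρ₁ ρ₂ : ResidualGaloisRep k}
    (h : ρ₁.IsIrreducible)
    (hc : ∀ σ, (ρ₁.ρ σ).charpoly = (ρ₂.ρ σ).charpoly) : ρ₁.IsEquiv ρ₂ := by
  by_cases ha : Spans ρ₁.ρ
  · exact residual_isEquiv_of_charpoly_eq ((isAbsolutelyIrreducible_iff_spans ρ₁).mpr ha) hc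
  have htd := fun σ => trace_eq_of_charpoly_eq ρ₁.finrank_eq ρ₂.finrank_eq (hc σ)
  have ht := fun σ => (htd σ).1
  have hd := det_repAlgHom_eq ρ₁.finrank_eq ρ₂.finrank_eq ht (fun σ => (htd σ).2)
  have hz := @eq_zero_of_det_repAlgHom_eq_zero k _ _ _ _ _ _ _ ρ₁.finrank_eq ρ₁.ρ h ha
  -- `ρ₂` is irreducible as well
  have h2 : ρ₂.IsIrreducible := by
    intro W hW
    by_contra hcon
    push Not at hcon
    obtain ⟨w, hwW, hw0⟩ := W.ne_bot_iff.mp hcon.1
    have hline : W = k ∙ w := by
      refine (Submodule.eq_of_le_of_finrank_le ((Submodule.span_singleton_le_iff_mem _ _).mpr hwW)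
        ?_).symm
      rw [finrank_span_singleton hw0]
      have := Submodule.finrank_lt (hcon.2)
      rw [ρ₂.finrank_eq] at this
      omega
    -- every `ρ₁ σ` is a scalar
    have hscal : ∀ σ, ∃ r : k, ρ₁.ρ σ = r • 1 := by
      intro σ
      obtain ⟨r, hr⟩ := Submodule.mem_span_singleton.mp (hline ▸ hW σ w hwW)
      refine ⟨r, ?_⟩
      let c : MonoidAlgebra k _ := MonoidAlgebra.of k _ σ - r • 1
      have hc2 : LinearMap.det (repAlgHom ρ₂.ρ c) = 0 := by
        rw [LinearMap.det_eq_zero_iff_ker_ne_bot]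
        refine (Submodule.ne_bot_iff _).mpr ⟨w, ?_, hw0⟩
        rw [LinearMap.mem_ker, map_sub, map_smul, map_one, repAlgHom_of, LinearMap.sub_apply,
          LinearMap.smul_apply, Module.End.one_apply, hr, sub_self]
      have := hz ((hd c).trans hc2)
      rwa [map_sub, map_smul, map_one, repAlgHom_of, sub_eq_zero] at this
    have hnt : Nontrivial ρ₁.V := Module.nontrivial_of_finrank_eq_succ ρ₁.finrank_eq
    obtain ⟨x, hx⟩ := exists_ne (0 : ρ₁.V)
    rcases h (k ∙ x) (fun σ z hz' => by
      obtain ⟨r, hr⟩ := hscal σ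
      rw [hr]
      exact Submodule.smul_mem _ _ hz') with h' | h'
    · exact hx (Submodule.span_singleton_eq_bot.mp h')
    · have := finrank_span_singleton (K := k) hx
      rw [h', finrank_top, ρ₁.finrank_eq] at this
      omega
  by_cases ha2 : Spans ρ₂.ρ
  · obtain ⟨e⟩ := residual_isEquiv_of_trace_eq ((isAbsolutelyIrreducible_iff_spans ρ₂).mpr ha2)
      (fun σ => (ht σ).symm)
    exact ⟨e.symm⟩
  have hz2 := @eq_zero_of_det_repAlgHom_eq_zero k _ _ _ _ _ _ _ ρ₂.finrank_eq ρ₂.ρ h2 ha2
  have hker : ∀ c, repAlgHom ρ₁.ρ c = 0 ↔ repAlgHom ρ₂.ρ c = 0 := fun c =>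
    ⟨fun h1 => hz2 (by rw [← hd, h1, LinearMap.det_zero, ρ₁.finrank_eq]; simp),
      fun h1 => hz (by rw [hd, h1, LinearMap.det_zero, ρ₂.finrank_eq]; simp)⟩
  -- orbit maps
  have : Nontrivial ρ₁.V := Module.nontrivial_of_finrank_eq_succ ρ₁.finrank_eq
  have : Nontrivial ρ₂.V := Module.nontrivial_of_finrank_eq_succ ρ₂.finrank_eq
  obtain ⟨x, hx⟩ := exists_ne (0 : ρ₁.V)
  obtain ⟨y, hy⟩ := exists_ne (0 : ρ₂.V)
  let p₁ := (LinearMap.applyₗ x).comp (repAlgHom ρ₁.ρ).toLinearMap
  let p₂ := (LinearMap.applyₗ y).comp (repAlgHom ρ₂.ρ).toLinearMap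
  have hsurj : Function.Surjective p₁ := by
    rw [← LinearMap.range_eq_top]
    refine (h _ ?_).resolve_left ?_
    · rintro σ _ ⟨c, rfl⟩
      exact ⟨MonoidAlgebra.of k _ σ * c, by simp [p₁, map_mul, repAlgHom_single]⟩
    · exact (Submodule.ne_bot_iff _).mpr ⟨x, ⟨1, by simp [p₁]⟩, hx⟩
  have hp : LinearMap.ker p₁ ≤ LinearMap.ker p₂ := by
    intro c hc'
    have h1 : repAlgHom ρ₁.ρ c x = 0 := hc'
    have h2' : repAlgHom ρ₁.ρ c = 0 := hz (LinearMap.det_eq_zero_iff_ker_ne_bot.mpr
      ((Submodule.ne_bot_iff _).mpr ⟨x, h1, hx⟩))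
    show repAlgHom ρ₂.ρ c y = 0
    rw [(hker c).mp h2', LinearMap.zero_apply]
  have hp' : LinearMap.ker p₂ ≤ LinearMap.ker p₁ := by
    intro c hc'
    have h1 : repAlgHom ρ₂.ρ c y = 0 := hc'
    have h2' : repAlgHom ρ₂.ρ c = 0 := hz2 (LinearMap.det_eq_zero_iff_ker_ne_bot.mpr
      ((Submodule.ne_bot_iff _).mpr ⟨y, h1, hy⟩))
    show repAlgHom ρ₁.ρ c x = 0
    rw [(hker c).mpr h2', LinearMap.zero_apply]
  obtain ⟨s, hs⟩ := LinearMap.exists_rightInverse_of_surjective p₁
    (LinearMap.range_eq_top.mpr hsurj)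
  replace hs : ∀ z, p₁ (s z) = z := fun z => congr($hs z)
  let f : ρ₁.V →ₗ[k] ρ₂.V := p₂ ∘ₗ s
  have hf : ∀ c, f (p₁ c) = p₂ c := fun c => by
    rw [← sub_eq_zero]
    show p₂ (s (p₁ c)) - p₂ c = 0
    rw [← map_sub]
    exact hp (by rw [LinearMap.mem_ker, map_sub, hs, sub_self])
  have hinj : Function.Injective f := by
    rw [injective_iff_map_eq_zero]
    intro z hz'
    obtain ⟨c, rfl⟩ := hsurj z
    exact hp' (by rw [LinearMap.mem_ker, ← hf]; exact hz')
  refine ⟨⟨LinearEquiv.ofInjectiveOfFinrankEq f hinj (ρ₁.finrank_eq.trans ρ₂.finrank_eq.symm),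
    fun σ z => ?_⟩⟩
  obtain ⟨c, rfl⟩ := hsurj z
  show f (ρ₁.ρ σ (p₁ c)) = ρ₂.ρ σ (f (p₁ c))
  rw [show ρ₁.ρ σ (p₁ c) = p₁ (MonoidAlgebra.of k _ σ * c) by simp [p₁, map_mul, repAlgHom_single],
    hf, hf]
  simp [p₂, map_mul, repAlgHom_single]

end Residual

end FLTA.RepTheory
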