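import Mathlib.RingTheory.DiscreteValuationRing.Basic
import Mathlib.RingTheory.DedekindDomain.IntegralClosure
import Mathlib.RingTheory.AdicCompletion.Noetherian
import Mathlib.RingTheory.LocalRing.ResidueField.Basic
import Mathlib.NumberTheory.Padics.PadicIntegers
import Mathlib.NumberTheory.Padics.RingHoms
import Mathlib.Analysis.Complex.Basic
import Mathlib.FieldTheory.IsAlgClosed.AlgebraicClosure
import Mathlib.FieldTheory.Extension
import Mathlib.FieldTheory.Finite.Basic
import Mathlib.RingTheory.AdicCompletion.AsTensorProduct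
import Mathlib.RingTheory.DiscreteValuationRing.TFAE
import Mathlib.RingTheory.Henselian
import Mathlib.RingTheory.Ideal.GoingUp
import Mathlib.RingTheory.Ideal.MinimalPrime.Localization
import Mathlib.RingTheory.Ideal.MinimalPrime.Noetherian
import Mathlib.Analysis.Complex.Polynomial.Basic

/-!
# Finite extensions of complete discrete valuation rings, and characters into them
-/

set_option autoImplicit false

open IsLocalRing
open scoped TensorProduct

namespace FLTA.RepTheory

section Complete

universe u

variable (O : Type u) [CommRing O] [IsLocalRing O] [IsNoetherianRing O]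
  [IsAdicComplete (maximalIdeal O) O]

/-- A finite module over a complete Noetherian local ring is adically complete. -/
theorem isAdicComplete_of_module_finite (M : Type u) [AddCommGroup M] [Module O M]
    [Module.Finite O M] : IsAdicComplete (maximalIdeal O) M := by
  rw [← AdicCompletion.of_bijective_iff]
  let e₀ : M ≃ₗ[O] AdicCompletion (maximalIdeal O) O ⊗[O] M :=
    (TensorProduct.lid O M).symm.trans
      (TensorProduct.congr (AdicCompletion.ofLinearEquiv (maximalIdeal O) O) (LinearEquiv.refl O M))
  let e := e₀.trans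
    ((AdicCompletion.ofTensorProductEquivOfFiniteNoetherian (maximalIdeal O) M).restrictScalars O)
  have h1 : AdicCompletion.of (maximalIdeal O) O 1 = 1 := AdicCompletion.ext fun n => by simp
  have : ⇑(AdicCompletion.of (maximalIdeal O) M) = e := by
    funext x
    simp [e, e₀, h1]
  rw [this]
  exact e.bijective

/-- Adic completeness only depends on the topology of the ideal. -/
theorem isAdicComplete_of_pow_succ_le {R : Type*} [CommRing R] {I J : Ideal R} (h1 : I ≤ J)
    {e : ℕ} (h2 : J ^ (e + 1) ≤ I) [IsAdicComplete I R] : IsAdicComplete J R where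
  haus' x hx := by
    refine IsHausdorff.haus (I := I) inferInstance x fun n => ?_
    have := hx ((e + 1) * n)
    rw [SModEq.zero, smul_eq_mul, Ideal.mul_top] at this ⊢
    rw [pow_mul] at this
    exact Ideal.pow_right_mono h2 n this
  prec' f hf := by
    obtain ⟨L, hL⟩ := IsPrecomplete.prec (I := I) inferInstance (f := fun n => f ((e + 1) * n))
      (fun {m n} hmn => by
        have := hf (Nat.mul_le_mul_left (e + 1) hmn)
        rw [SModEq.sub_mem, smul_eq_mul, Ideal.mul_top] at this ⊢
        rw [pow_mul] at this
        exact Ideal.pow_right_mono h2 m this)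
    refine ⟨L, fun n => ?_⟩
    have ha := hL n
    have hb := hf (show n ≤ (e + 1) * n from Nat.le_mul_of_pos_left n e.succ_pos)
    rw [SModEq.sub_mem, smul_eq_mul, Ideal.mul_top] at ha hb ⊢
    have hc := add_mem hb (Ideal.pow_right_mono h1 n ha)
    rwa [sub_add_sub_cancel] at hc

/-- In a finite monoid some positive power is idempotent. -/
theorem exists_isIdempotentElem_pow {Q : Type*} [Monoid Q] [Finite Q] (x : Q) :
    ∃ n, 0 < n ∧ IsIdempotentElem (x ^ n) := by
  obtain ⟨i, j, hne, hij⟩ := Finite.exists_ne_map_eq_of_infinite (fun n : ℕ => x ^ n)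
  wlog hlt : i < j generalizing i j
  · exact this j i hne.symm hij.symm (by omega)
  obtain ⟨d, rfl⟩ := Nat.exists_eq_add_of_lt hlt
  have key : ∀ k t, x ^ (i + t + k * (d + 1)) = x ^ (i + t) := by
    intro k
    induction k with
    | zero => simp
    | succ k ih =>
      intro t
      rw [show i + t + (k + 1) * (d + 1) = (i + d + 1) + (t + k * (d + 1)) by ring, pow_add,
        ← hij, ← pow_add, ← add_assoc, ih]
  refine ⟨(i + 1) * (d + 1), by positivity, ?_⟩
  obtain ⟨t, ht⟩ := Nat.exists_eq_add_of_le (show i ≤ (i + 1) * (d + 1) by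
    calc i ≤ (i + 1) * 1 := by omega
      _ ≤ (i + 1) * (d + 1) := Nat.mul_le_mul_left _ (by omega))
  show x ^ _ * x ^ _ = _
  rw [← pow_add]
  conv_lhs => arg 2; arg 1; rw [ht]
  rw [key, ← ht]

/-- A domain finite over a complete Noetherian local ring with finite residue field is local. -/
theorem isLocalRing_of_domain_finite (B : Type u) [CommRing B] [IsDomain B] [Algebra O B]
    [Module.Finite O B] [Finite (ResidueField O)] : IsLocalRing B := by
  set I := (maximalIdeal O).map (algebraMap O B) with hI
  have := isAdicComplete_of_module_finite O B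
  have : IsAdicComplete I B := (IsAdicComplete.map_algebraMap_iff _ _).mpr inferInstance
  have hj : I ≤ (⊥ : Ideal B).jacobson := IsAdicComplete.le_jacobson_bot I
  have hne : I ≠ ⊤ := fun h => by
    rw [h, top_le_iff, Ideal.jacobson_eq_top_iff] at hj
    exact bot_ne_top hj
  have : Finite (O ⧸ maximalIdeal O) := ‹Finite (ResidueField O)›
  have : Module.Finite (O ⧸ maximalIdeal O) (B ⧸ I) :=
    Module.Finite.of_restrictScalars_finite O _ _
  have : Finite (B ⧸ I) := Module.finite_of_finite (O ⧸ maximalIdeal O)
  have key : ∀ a : B, ¬ IsUnit a → a ∈ I.radical := by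
    intro a ha
    obtain ⟨n, hn, hidem⟩ := exists_isIdempotentElem_pow (Ideal.Quotient.mk I a)
    rw [← map_pow, IsIdempotentElem, ← map_mul, Ideal.Quotient.eq] at hidem
    set b := a ^ n
    let P : Polynomial B := Polynomial.X ^ 2 - Polynomial.X
    have hm : P.Monic := Polynomial.monic_X_pow_sub (by simp)
    have he : P.eval b ∈ I := by simpa [P, pow_two] using hidem
    have hu : IsUnit (Ideal.Quotient.mk I (P.derivative.eval b)) := by
      refine IsUnit.of_mul_eq_one (Ideal.Quotient.mk I (P.derivative.eval b)) ?_
      rw [← map_mul, ← map_one (Ideal.Quotient.mk I), Ideal.Quotient.eq]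
      have h : P.derivative.eval b * P.derivative.eval b - 1 = 4 * (b * b - b) := by
        simp [P]; ring
      rw [h]
      exact Ideal.mul_mem_left _ _ hidem
    obtain ⟨c, hc, hcb⟩ := HenselianRing.is_henselian P hm b he hu
    have hc' : c * (c - 1) = 0 := by
      have : P.eval c = 0 := hc
      simp [P] at this
      linear_combination this
    rcases mul_eq_zero.mp hc' with rfl | h1
    · exact ⟨n, by simpa using hcb⟩
    · rw [sub_eq_zero.mp h1] at hcb
      refine absurd ?_ ha
      have hb : IsUnit b := by
        have := Ideal.mem_jacobson_bot.mp (hj (neg_mem hcb)) 1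
        simpa using this
      exact (isUnit_pow_iff hn.ne').mp hb
  refine IsLocalRing.of_nonunits_add fun a b ha hb hu => ?_
  have := add_mem (key a ha) (key b hb)
  exact hne (Ideal.radical_eq_top.mp (Ideal.eq_top_of_isUnit_mem _ this hu))

variable (B : Type u) [CommRing B] [IsLocalRing B] [Algebra O B] [Module.Finite O B]

theorem isLocalHom_algebraMap_of_finite : IsLocalHom (algebraMap O B) := by
  have := isAdicComplete_of_module_finite O B
  have : IsAdicComplete ((maximalIdeal O).map (algebraMap O B)) B :=
    (IsAdicComplete.map_algebraMap_iff _ _).mpr inferInstance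
  have h : (maximalIdeal O).map (algebraMap O B) ≤ maximalIdeal B :=
    (IsAdicComplete.le_jacobson_bot _).trans (IsLocalRing.jacobson_eq_maximalIdeal ⊥ bot_ne_top).le
  exact ((IsLocalRing.local_hom_TFAE (algebraMap O B)).out 0 2).mpr h

include O in
theorem isAdicComplete_maximalIdeal_of_finite : IsAdicComplete (maximalIdeal B) B := by
  have := isAdicComplete_of_module_finite O B
  have : IsAdicComplete ((maximalIdeal O).map (algebraMap O B)) B :=
    (IsAdicComplete.map_algebraMap_iff _ _).mpr inferInstance
  have hloc := isLocalHom_algebraMap_of_finite O B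
  have h1 : (maximalIdeal O).map (algebraMap O B) ≤ maximalIdeal B :=
    ((IsLocalRing.local_hom_TFAE (algebraMap O B)).out 0 2).mp hloc
  have : IsNoetherianRing B :=
    isNoetherian_of_tower O (inferInstance : IsNoetherian O B)
  have hrad : maximalIdeal B ≤ ((maximalIdeal O).map (algebraMap O B)).radical := by
    rw [Ideal.radical_eq_sInf]
    refine le_sInf fun P hP => ?_
    have hPp : P.IsPrime := hP.2
    have h2 : maximalIdeal O ≤ P.comap (algebraMap O B) := Ideal.map_le_iff_le_comap.mp hP.1
    have h3 : P.comap (algebraMap O B) = maximalIdeal O :=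
      ((maximalIdeal.isMaximal O).eq_of_le (Ideal.IsPrime.ne_top inferInstance) h2).symm
    have : P.IsMaximal :=
      Ideal.isMaximal_of_isIntegral_of_isMaximal_comap P (h3 ▸ maximalIdeal.isMaximal O)
    exact (IsLocalRing.eq_maximalIdeal this).ge
  obtain ⟨k, hk⟩ := Ideal.exists_radical_pow_le_of_fg _
    (IsNoetherian.noetherian ((maximalIdeal O).map (algebraMap O B)).radical)
  exact isAdicComplete_of_pow_succ_le h1 (e := k)
    ((Ideal.pow_le_pow_right k.le_succ).trans ((Ideal.pow_right_mono hrad k).trans hk))

theorem finite_residueField_of_finite [Finite (ResidueField O)] : Finite (ResidueField B) := by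
  have := isLocalHom_algebraMap_of_finite O B
  exact IsLocalRing.ResidueField.finite_of_finite (R := O) (S := B) inferInstance

end Complete

/-- A complete DVR of characteristic zero with finite residue field, finite over `O`. -/
structure FiniteDVRExt (O : Type) [CommRing O] [IsLocalRing O] : Type 1 where
  R : Type
  [instCommRing : CommRing R]
  [instIsDomain : IsDomain R]
  [instDVR : IsDiscreteValuationRing R]
  [instComplete : IsAdicComplete (IsLocalRing.maximalIdeal R) R]
  [instFiniteResidue : Finite (IsLocalRing.ResidueField R)]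
  [instCharZero : CharZero R]
  [instAlgebra : Algebra O R]
  [instModuleFinite : Module.Finite O R]
  [instIsLocalHom : IsLocalHom (algebraMap O R)]
  injective : Function.Injective (algebraMap O R)

attribute [instance] FiniteDVRExt.instCommRing FiniteDVRExt.instIsDomain FiniteDVRExt.instDVR
  FiniteDVRExt.instComplete FiniteDVRExt.instFiniteResidue FiniteDVRExt.instCharZero
  FiniteDVRExt.instAlgebra FiniteDVRExt.instModuleFinite FiniteDVRExt.instIsLocalHom

section MinimalPrimes

/-- An algebra homomorphism out of a domain that is integral over `O` is injective as soon as it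
is so on `O`. -/
theorem algHom_injective_of_integral_domain {O A B : Type*} [CommRing O] [CommRing A] [CommRing B]
    [Algebra O A] [Algebra O B] [IsDomain A] [IsDomain B] [Algebra.IsIntegral O A] [Nontrivial O]
    (h : A →ₐ[O] B) (hB : Function.Injective (algebraMap O B)) : Function.Injective h := by
  have : (RingHom.ker h.toRingHom).IsPrime := RingHom.ker_isPrime _
  refine (RingHom.injective_iff_ker_eq_bot h.toRingHom).mpr
    (Ideal.eq_bot_of_comap_eq_bot (R := O) (S := A) (I := RingHom.ker h.toRingHom) ?_)
  refine (Submodule.eq_bot_iff _).mpr fun x hx => hB ?_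
  rw [map_zero, ← h.commutes]
  exact hx

/-- In a torsion-free algebra over a domain minimal primes lie over zero. -/
theorem eq_zero_of_algebraMap_mem_minimalPrimes {O : Type*} [CommRing O] [IsDomain O]
    {T : Type*} [CommRing T] [Algebra O T] [Module.IsTorsionFree O T] {P : Ideal T}
    (hP : P ∈ minimalPrimes T) {a : O} (ha : algebraMap O T a ∈ P) : a = 0 := by
  by_contra ha0
  have hx : algebraMap O T a ∈ ⋃ Q ∈ (⊥ : Ideal T).minimalPrimes, (Q : Set T) :=
    Set.mem_biUnion hP ha
  rw [Ideal.iUnion_minimalPrimes] at hx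
  obtain ⟨y, hy, hy'⟩ := hx
  obtain ⟨n, hn⟩ := hy'
  refine hy ⟨n, ?_⟩
  rw [Ideal.mem_bot, mul_pow, ← map_pow, ← Algebra.smul_def, smul_eq_zero] at hn
  rw [Ideal.mem_bot]
  exact hn.resolve_left (pow_ne_zero n ha0)

end MinimalPrimes

section Extension

variable (O : Type) [CommRing O] [IsDomain O] [IsDiscreteValuationRing O]
  [IsAdicComplete (maximalIdeal O) O] [Finite (ResidueField O)] [CharZero O]

omit [IsDiscreteValuationRing O] [IsAdicComplete (maximalIdeal O) O] [Finite (ResidueField O)]
  [CharZero O] in
theorem algebraMap_algClosure_injective :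
    Function.Injective (algebraMap O (AlgebraicClosure (FractionRing O))) := by
  rw [IsScalarTower.algebraMap_eq O (FractionRing O) (AlgebraicClosure (FractionRing O))]
  exact (algebraMap (FractionRing O) (AlgebraicClosure (FractionRing O))).injective.comp
    (IsFractionRing.injective O (FractionRing O))

omit [IsDiscreteValuationRing O] [IsAdicComplete (maximalIdeal O) O] [Finite (ResidueField O)]
  [CharZero O] in
theorem isTorsionFree_algClosure :
    Module.IsTorsionFree O (AlgebraicClosure (FractionRing O)) :=
  Module.isTorsionFree_iff_algebraMap_injective.mpr (algebraMap_algClosure_injective O)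

/-- The integral closure of `O` in a finite extension of its fraction field. -/
theorem integralClosure_instances (K L : Type) [Field K] [Algebra O K] [IsFractionRing O K]
    [Field L] [Algebra K L] [Algebra O L] [IsScalarTower O K L] [FiniteDimensional K L] :
    ∃ (_ : IsDiscreteValuationRing (integralClosure O L))
      (_ : IsAdicComplete (maximalIdeal (integralClosure O L)) (integralClosure O L))
      (_ : Finite (ResidueField (integralClosure O L))) (_ : CharZero (integralClosure O L))
      (_ : Module.Finite O (integralClosure O L))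
      (_ : IsLocalHom (algebraMap O (integralClosure O L))),
      Function.Injective (algebraMap O (integralClosure O L)) := by
  have hinj : Function.Injective (algebraMap O L) := by
    rw [IsScalarTower.algebraMap_eq O K L]
    exact (algebraMap K L).injective.comp (IsFractionRing.injective O K)
  have hinj' : Function.Injective (algebraMap O (integralClosure O L)) := fun a b h =>
    hinj (congrArg Subtype.val h)
  have : CharZero K := charZero_of_injective_algebraMap (IsFractionRing.injective O K)
  have hfin : Module.Finite O (integralClosure O L) := IsIntegralClosure.finite O K L _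
  have := isLocalRing_of_domain_finite O (integralClosure O L)
  have : IsDedekindDomain (integralClosure O L) := IsIntegralClosure.isDedekindDomain O K L (integralClosure O L)
  have hnf : ¬ IsField (integralClosure O L) := fun h =>
    IsDiscreteValuationRing.not_isField O (isField_of_isIntegral_of_isField hinj' h)
  have hdvr : IsDiscreteValuationRing (integralClosure O L) :=
    ((IsDiscreteValuationRing.TFAE (integralClosure O L) hnf).out 0 2).mpr ‹_›
  exact ⟨hdvr, isAdicComplete_maximalIdeal_of_finite O _, finite_residueField_of_finite O _,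
    charZero_of_injective_algebraMap hinj', hfin, isLocalHom_algebraMap_of_finite O _, hinj'⟩

/-- Finitely many integral elements of an algebraic closure lie in one finite extension. -/
theorem exists_finiteDVRExt_subset (s : Set (AlgebraicClosure (FractionRing O))) (hs : s.Finite)
    (hint : ∀ x ∈ s, IsIntegral O x) :
    ∃ E : FiniteDVRExt O, ∃ ι : E.R →ₐ[O] AlgebraicClosure (FractionRing O),
      Function.Injective ι ∧ ∀ x ∈ s, x ∈ ι.range := by
  let L : IntermediateField (FractionRing O) (AlgebraicClosure (FractionRing O)) :=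
    IntermediateField.adjoin (FractionRing O) s
  have : Finite s := hs.to_subtype
  have : FiniteDimensional (FractionRing O) L :=
    IntermediateField.finiteDimensional_adjoin fun x _ => Algebra.IsIntegral.isIntegral x
  have : IsScalarTower O L (AlgebraicClosure (FractionRing O)) :=
    IsScalarTower.of_algebraMap_eq fun x => IsScalarTower.algebraMap_apply O (FractionRing O) _ x
  obtain ⟨h1, h2, h3, h4, h5, h6, h7⟩ := integralClosure_instances O (FractionRing O) L
  refine ⟨⟨integralClosure O L, h7⟩,
    (IsScalarTower.toAlgHom O L (AlgebraicClosure (FractionRing O))).comp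
      (integralClosure O L).val, fun a b h => ?_, fun x hx => ?_⟩
  · exact Subtype.ext (Subtype.ext h)
  · exact ⟨⟨⟨x, IntermediateField.subset_adjoin _ _ hx⟩,
      (isIntegral_algHom_iff (IsScalarTower.toAlgHom O L (AlgebraicClosure (FractionRing O)))
        Subtype.val_injective).mp (hint x hx)⟩, rfl⟩

/-- A ring homomorphism factors through an injective one with larger range. -/
theorem exists_factor_of_injective {R A B : Type*} [CommRing R] [CommRing A] [CommRing B]
    (ι : A →+* B) (hι : Function.Injective ι) (g : R →+* B) (h : ∀ r, g r ∈ Set.range ι) :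
    ∃ ψ : R →+* A, ι.comp ψ = g := by
  choose ψ hψ using h
  refine ⟨{ toFun := ψ, map_one' := hι ?_, map_mul' := fun x y => hι ?_, map_zero' := hι ?_,
            map_add' := fun x y => hι ?_ }, RingHom.ext hψ⟩ <;>
  simp [hψ]

/-- A finite torsion-free domain over `O` embeds in a finite extension of `O`. -/
theorem exists_injective_point (D : Type*) [CommRing D] [IsDomain D] [Algebra O D]
    [Module.Finite O D] (hinj : Function.Injective (algebraMap O D)) :
    ∃ E : FiniteDVRExt O, ∃ g : D →ₐ[O] E.R, Function.Injective g := by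
  have : Module.IsTorsionFree O D := Module.isTorsionFree_iff_algebraMap_injective.mpr hinj
  have := isTorsionFree_algClosure O
  let h : D →ₐ[O] AlgebraicClosure (FractionRing O) := IsAlgClosed.lift
  have hhinj : Function.Injective h :=
    algHom_injective_of_integral_domain h (algebraMap_algClosure_injective O)
  obtain ⟨s0, hs0⟩ := Module.Finite.fg_top (R := O) (M := D)
  obtain ⟨E, ι, hι, hE⟩ := exists_finiteDVRExt_subset O (h '' s0)
    (s0.finite_toSet.image _) (by
      rintro _ ⟨r, -, rfl⟩
      exact (Algebra.IsIntegral.isIntegral r).map h)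
  have hrange : ∀ x, h x ∈ ι.range := by
    intro x
    have hx : x ∈ Submodule.span O (s0 : Set D) := by rw [hs0]; trivial
    induction hx using Submodule.span_induction with
    | mem y hy => exact hE _ ⟨y, hy, rfl⟩
    | zero => rw [map_zero]; exact zero_mem _
    | add y z _ _ hy hz => rw [map_add]; exact add_mem hy hz
    | smul z y _ hy => rw [map_smul]; exact Subalgebra.smul_mem _ hy z
  exact ⟨E, (AlgEquiv.ofInjective ι hι).symm.toAlgHom.comp (h.codRestrict ι.range hrange),
    (AlgEquiv.ofInjective ι hι).symm.injective.comp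
      (fun a b hab => hhinj (congrArg Subtype.val hab))⟩

/-- An embedding of a domain into an algebraically closed field extends to integral extensions. -/
theorem exists_extend_of_integral {A B F : Type*} [CommRing A] [IsDomain A] [CommRing B]
    [IsDomain B] [Field F] [IsAlgClosed F] (i : A →+* B) (hi : Function.Injective i)
    (hint : i.IsIntegral) (c : A →+* F) (hc : Function.Injective c) :
    ∃ g : B →+* F, g.comp i = c := by
  let _ := i.toAlgebra
  let _ := c.toAlgebra
  have : Algebra.IsIntegral A B := ⟨hint⟩
  have : Module.IsTorsionFree A B := Module.isTorsionFree_iff_algebraMap_injective.mpr hi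
  have : Module.IsTorsionFree A F := Module.isTorsionFree_iff_algebraMap_injective.mpr hc
  exact ⟨(IsAlgClosed.lift : B →ₐ[A] F).toRingHom, AlgHom.comp_algebraMap _⟩

/-- A character of a subring extends to a character of a `ℤ`-finite ring, after a finite
extension of `O`. -/
theorem exists_ext_character {R₀ R : Type*} [CommRing R₀] [CommRing R] [Module.Finite ℤ R]
    (f : R₀ →+* R) (hf : Function.Injective f) (χ : R₀ →+* O) :
    ∃ E : FiniteDVRExt O, ∃ ψ : R →+* E.R, ψ.comp f = (algebraMap O E.R).comp χ := by
  algebraize [f]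
  have : Module.Finite R₀ R := Module.Finite.of_restrictScalars_finite ℤ R₀ R
  have : (RingHom.ker χ).IsPrime := RingHom.ker_isPrime χ
  obtain ⟨P, -, hP, hPc⟩ := Ideal.exists_ideal_over_prime_of_isIntegral (RingHom.ker χ)
    (⊥ : Ideal R) (by
      intro x hx
      rw [Ideal.mem_comap, Ideal.mem_bot] at hx
      have : x = 0 := hf (by rw [map_zero]; exact hx)
      simp [this])
  have hinjK := algebraMap_algClosure_injective O
  let χ' : R₀ →+* AlgebraicClosure (FractionRing O) := (algebraMap O _).comp χ
  have hPc' : P.comap f = RingHom.ker χ := hPc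
  have hker : P.comap f = RingHom.ker χ' := by
    rw [hPc']
    exact (RingHom.ker_comp_of_injective χ hinjK).symm
  let c : R₀ ⧸ P.comap f →+* AlgebraicClosure (FractionRing O) :=
    Ideal.Quotient.lift _ χ' fun a ha => by
      rw [hker] at ha
      exact ha
  have hcinj : Function.Injective c :=
    RingHom.lift_injective_of_ker_le_ideal _ _ hker.ge
  obtain ⟨g', hg'⟩ := exists_extend_of_integral (Ideal.quotientMap P f le_rfl)
    Ideal.quotientMap_injective
    (RingHom.IsIntegral.quotient f (algebraMap_isIntegral_iff.mpr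
      (inferInstance : Algebra.IsIntegral R₀ R))) c hcinj
  let g : R →+* AlgebraicClosure (FractionRing O) := g'.comp (Ideal.Quotient.mk P)
  have hg : ∀ a, g (f a) = χ' a := fun a =>
    RingHom.congr_fun hg' (Ideal.Quotient.mk _ a)
  obtain ⟨s0, hs0⟩ := Module.Finite.fg_top (R := ℤ) (M := R)
  obtain ⟨E, ι, hι, hE⟩ := exists_finiteDVRExt_subset O (g '' s0) (s0.finite_toSet.image _) (by
    rintro _ ⟨r, -, rfl⟩
    obtain ⟨q, hq, hq0⟩ := Algebra.IsIntegral.isIntegral (R := ℤ) r
    refine ⟨q.map (algebraMap ℤ O), hq.map _, ?_⟩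
    have := congrArg g hq0
    rw [Polynomial.hom_eval₂, map_zero] at this
    rw [Polynomial.eval₂_map]
    rwa [RingHom.ext_int ((algebraMap O _).comp (algebraMap ℤ O)) (g.comp (algebraMap ℤ R))])
  have hrange : ∀ r, g r ∈ Set.range ι.toRingHom := by
    intro r
    have hr : r ∈ Submodule.span ℤ (s0 : Set R) := by rw [hs0]; trivial
    show g r ∈ ι.range
    induction hr using Submodule.span_induction with
    | mem x hx => exact hE _ ⟨x, hx, rfl⟩
    | zero => rw [map_zero]; exact zero_mem _
    | add x y _ _ hx hy => rw [map_add]; exact add_mem hx hy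
    | smul z x _ hx => rw [map_zsmul]; exact zsmul_mem hx z
  obtain ⟨ψ, hψ⟩ := exists_factor_of_injective ι.toRingHom hι g hrange
  refine ⟨E, ψ, RingHom.ext fun a => hι ?_⟩
  show ι.toRingHom (ψ (f a)) = ι (algebraMap O E.R (χ a))
  rw [ι.commutes, ← RingHom.comp_apply ι.toRingHom ψ, hψ, hg]
  rfl

/-- A reduced, finite, torsion-free `O`-algebra has jointly injective points in one finite
extension of `O`. -/
theorem exists_points_of_isReduced (T : Type) [CommRing T] [Algebra O T] [Module.Finite O T]
    [Module.IsTorsionFree O T] [IsReduced T] :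
    ∃ E : FiniteDVRExt O, ∀ t : T, t ≠ 0 → ∃ ψ : T →ₐ[O] E.R, ψ t ≠ 0 := by
  have : IsNoetherianRing T := isNoetherian_of_tower O (inferInstance : IsNoetherian O T)
  obtain ⟨s0, hs0⟩ := Module.Finite.fg_top (R := O) (M := T)
  have hlift : ∀ P : minimalPrimes T, ∃ g : T →ₐ[O] AlgebraicClosure (FractionRing O),
      RingHom.ker g.toRingHom = P.1 := by
    rintro ⟨P, hP⟩
    have : P.IsPrime := Ideal.minimalPrimes_isPrime hP
    have hPinj : Function.Injective (algebraMap O (T ⧸ P)) := by
      rw [injective_iff_map_eq_zero]
      intro a ha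
      exact eq_zero_of_algebraMap_mem_minimalPrimes (T := T) hP
        (Ideal.Quotient.eq_zero_iff_mem.mp ha)
    have : Module.IsTorsionFree O (T ⧸ P) :=
      Module.isTorsionFree_iff_algebraMap_injective.mpr hPinj
    have := isTorsionFree_algClosure O
    let h : T ⧸ P →ₐ[O] AlgebraicClosure (FractionRing O) := IsAlgClosed.lift
    have hh : Function.Injective h := algHom_injective_of_integral_domain h (algebraMap_algClosure_injective O)
    refine ⟨h.comp (Ideal.Quotient.mkₐ O P), Ideal.ext fun x => ?_⟩
    show h (Ideal.Quotient.mk P x) = 0 ↔ _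
    rw [map_eq_zero_iff _ hh, Ideal.Quotient.eq_zero_iff_mem]
  choose g hg using hlift
  have hfin : (minimalPrimes T).Finite := minimalPrimes.finite_of_isNoetherianRing T
  have : Finite (minimalPrimes T) := hfin.to_subtype
  obtain ⟨E, ι, hι, hE⟩ := exists_finiteDVRExt_subset O (⋃ P, g P '' s0)
    (Set.finite_iUnion fun P => s0.finite_toSet.image _) (by
      simp only [Set.mem_iUnion]
      rintro _ ⟨P, r, -, rfl⟩
      exact (Algebra.IsIntegral.isIntegral r).map (g P))
  refine ⟨E, fun t ht => ?_⟩
  obtain ⟨P, hP, htP⟩ : ∃ P ∈ minimalPrimes T, t ∉ P := by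
    by_contra! h
    refine ht ?_
    have : t ∈ sInf (minimalPrimes T) := by
      rw [Submodule.mem_sInf]
      exact h
    rw [show sInf (minimalPrimes T) = sInf (⊥ : Ideal T).minimalPrimes from rfl,
      Ideal.sInf_minimalPrimes] at this
    obtain ⟨n, hn⟩ := this
    exact IsReduced.eq_zero t ⟨n, hn⟩
  have hrange : (g ⟨P, hP⟩).range ≤ ι.range := by
    rintro _ ⟨r, rfl⟩
    show g ⟨P, hP⟩ r ∈ ι.range
    have hr : r ∈ Submodule.span O (s0 : Set T) := by rw [hs0]; trivial
    induction hr using Submodule.span_induction with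
    | mem x hx => exact hE _ (Set.mem_iUnion.mpr ⟨⟨P, hP⟩, x, hx, rfl⟩)
    | zero => rw [map_zero]; exact zero_mem _
    | add x y _ _ hx hy => rw [map_add]; exact add_mem hx hy
    | smul z x _ hx => rw [map_smul]; exact Subalgebra.smul_mem _ hx z
  let ψ : T →ₐ[O] E.R :=
    (AlgEquiv.ofInjective ι hι).symm.toAlgHom.comp
      ((g ⟨P, hP⟩).codRestrict ι.range fun r => hrange ⟨r, rfl⟩)
  refine ⟨ψ, fun h => htP ?_⟩
  have h' : ι (ψ t) = g ⟨P, hP⟩ t := by
    have := (AlgEquiv.ofInjective ι hι).apply_symm_apply
      ((g ⟨P, hP⟩).codRestrict ι.range (fun r => hrange ⟨r, rfl⟩) t)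
    exact congrArg Subtype.val this
  rw [h, map_zero] at h'
  exact (hg ⟨P, hP⟩).le h'.symm

end Extension

/-- The residue field of `ℤ_[p]` is finite. -/
theorem finite_residueField_padicInt (p : ℕ) [Fact p.Prime] : Finite (ResidueField ℤ_[p]) := by
  exact Finite.of_equiv _ (PadicInt.residueField (p := p)).symm.toEquiv

/-- A field receiving the algebraic integers contains an algebraic closure of its prime field. -/
theorem nonempty_algebraicClosure_zmod_ringHom {p : ℕ} [Fact p.Prime] {k : Type} [Field k]
    [CharP k p] (φ : integralClosure ℤ ℂ →+* k) :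
    Nonempty (AlgebraicClosure (ZMod p) →+* k) := by
  letI : Algebra (ZMod p) k := (ZMod.castHom dvd_rfl k).toAlgebra
  suffices Nonempty (AlgebraicClosure (ZMod p) →ₐ[ZMod p] k) from this.map AlgHom.toRingHom
  refine IntermediateField.nonempty_algHom_of_splits fun x =>
    ⟨Algebra.IsIntegral.isIntegral x, ?_⟩
  have hm : (minpoly (ZMod p) x).Monic := minpoly.monic (Algebra.IsIntegral.isIntegral x)
  obtain ⟨Q, hQ, -, hQm⟩ := Polynomial.lifts_and_natDegree_eq_and_monic
    (Polynomial.map_surjective (Int.castRingHom (ZMod p)) ZMod.intCast_surjective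
      (minpoly (ZMod p) x) : minpoly (ZMod p) x ∈ Polynomial.lifts (Int.castRingHom (ZMod p))) hm
  have hsp : (Q.map (algebraMap ℤ (integralClosure ℤ ℂ))).Splits := by
    refine Polynomial.Splits.of_splits_map_of_injective
      (i := algebraMap (integralClosure ℤ ℂ) ℂ) Subtype.val_injective ?_ ?_
    · rw [Polynomial.map_map]
      exact IsAlgClosed.splits _
    · intro r hr
      rw [Polynomial.map_map, Polynomial.roots] at hr
      have hr' : r ∈ (Q.map (algebraMap ℤ ℂ)).roots := hr
      exact ⟨⟨r, Q, hQm, by simpa [Polynomial.eval₂_eq_eval_map] using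
        (Polynomial.mem_roots'.mp hr').2⟩, rfl⟩
  have := hsp.map φ
  rw [Polynomial.map_map] at this
  rw [← hQ, Polynomial.map_map]
  rwa [RingHom.ext_int ((algebraMap (ZMod p) k).comp (Int.castRingHom (ZMod p)))
    (φ.comp (algebraMap ℤ (integralClosure ℤ ℂ)))]

/-- Lifting a mod-`p` point of a domain finite over `ℤ_[p]`. -/
theorem exists_dvr_lift_of_domain {p : ℕ} [Fact p.Prime] {D : Type} [CommRing D] [IsDomain D]
    [Algebra ℤ_[p] D] [Module.Finite ℤ_[p] D] (hinj : Function.Injective (algebraMap ℤ_[p] D))
    {k : Type} [Field k] [CharP k p] (hk : Nonempty (AlgebraicClosure (ZMod p) →+* k))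
    (u : D →+* k) :
    ∃ E : FiniteDVRExt ℤ_[p], ∃ g : D →ₐ[ℤ_[p]] E.R, ∃ j : ResidueField E.R →+* k,
      ∀ d, j (residue E.R (g d)) = u d := by
  have : Finite (ResidueField ℤ_[p]) := finite_residueField_padicInt p
  obtain ⟨E, g, -⟩ := exists_injective_point ℤ_[p] D hinj
  let res : D →+* ResidueField E.R := (residue E.R).comp g.toRingHom
  have := isLocalRing_of_domain_finite ℤ_[p] D
  have hmax : ∀ {F : Type} [Field F] (v : D →+* F), v (p : D) = 0 →
      RingHom.ker v = maximalIdeal D := by
    intro F _ v hv
    have : (RingHom.ker v).IsPrime := RingHom.ker_isPrime v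
    have h1 : maximalIdeal ℤ_[p] ≤ (RingHom.ker v).comap (algebraMap _ _) := by
      rw [PadicInt.maximalIdeal_eq_span_p, Ideal.span_le]
      simp [hv]
    have h2 : ((RingHom.ker v).comap (algebraMap ℤ_[p] D)).IsMaximal := by
      rw [← (maximalIdeal.isMaximal ℤ_[p]).eq_of_le (Ideal.IsPrime.ne_top inferInstance) h1]
      exact maximalIdeal.isMaximal _
    exact IsLocalRing.eq_maximalIdeal (Ideal.isMaximal_of_isIntegral_of_isMaximal_comap _ h2)
  have hpE : residue E.R (p : E.R) = 0 := by
    rw [residue_eq_zero_iff, ← map_natCast (algebraMap ℤ_[p] E.R)]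
    refine map_nonunit (algebraMap ℤ_[p] E.R) _ ?_
    rw [PadicInt.maximalIdeal_eq_span_p]
    exact Ideal.mem_span_singleton_self _
  have hp1 : res (p : D) = 0 := by rw [map_natCast res p, ← map_natCast (residue E.R) p]; exact hpE
  have hk1 : RingHom.ker res = maximalIdeal D := hmax res hp1
  have hk2 : RingHom.ker u = maximalIdeal D :=
    hmax u (by rw [map_natCast u p, CharP.cast_eq_zero k p])
  let _ : Algebra (ResidueField D) (ResidueField E.R) :=
    (Ideal.Quotient.lift (maximalIdeal D) res fun a ha => by
      rwa [← hk1, RingHom.mem_ker] at ha).toAlgebra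
  let _ : Algebra (ResidueField D) k :=
    (Ideal.Quotient.lift (maximalIdeal D) u fun a ha => by
      rwa [← hk2, RingHom.mem_ker] at ha).toAlgebra
  obtain ⟨e⟩ := hk
  let _ : Fintype (ResidueField E.R) := Fintype.ofFinite _
  have hj : Nonempty (ResidueField E.R →ₐ[ResidueField D] k) := by
    refine IntermediateField.nonempty_algHom_of_splits fun x =>
      ⟨Algebra.IsIntegral.isIntegral x, ?_⟩
    set q := Fintype.card (ResidueField E.R) with hq
    have hdvd : minpoly (ResidueField D) x ∣ Polynomial.X ^ q - Polynomial.X := by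
      refine minpoly.dvd _ _ ?_
      simp [hq, FiniteField.pow_card]
    have hsp : ((Polynomial.X ^ q - Polynomial.X : Polynomial (AlgebraicClosure (ZMod p))).map
        e).Splits := (IsAlgClosed.splits _).map e
    rw [Polynomial.map_sub, Polynomial.map_pow, Polynomial.map_X] at hsp
    refine hsp.of_dvd ?_ ?_
    · exact FiniteField.X_pow_card_sub_X_ne_zero k Fintype.one_lt_card
    · simpa using Polynomial.map_dvd (algebraMap (ResidueField D) k) hdvd
  obtain ⟨j⟩ := hj
  exact ⟨E, g, j.toRingHom, fun d => j.commutes (residue D d)⟩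

set_option backward.isDefEq.respectTransparency false in
/-- A mod-`p` character of a `ℤ`-finite torsion-free ring lifts to a characteristic zero DVR. -/
theorem exists_dvr_lift {p : ℕ} [Fact p.Prime] {R : Type} [CommRing R] [Module.Finite ℤ R]
    [Module.IsTorsionFree ℤ R] {k : Type} [Field k] [CharP k p]
    (hk : Nonempty (AlgebraicClosure (ZMod p) →+* k)) (ψ : R →+* k) :
    ∃ E : FiniteDVRExt ℤ_[p], ∃ χ : R →+* E.R, ∃ j : ResidueField E.R →+* k,
      ∀ r, j (residue E.R (χ r)) = ψ r := by
  let cp : ℤ_[p] →+* k := (ZMod.castHom dvd_rfl k).comp PadicInt.toZMod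
  let _ : Algebra ℤ_[p] k := cp.toAlgebra
  let Ψ : ℤ_[p] ⊗[ℤ] R →ₐ[ℤ_[p]] k :=
    Algebra.TensorProduct.lift (Algebra.ofId ℤ_[p] k) ψ.toIntAlgHom fun _ _ => Commute.all _ _
  have : Nontrivial (ℤ_[p] ⊗[ℤ] R) := Ψ.toRingHom.domain_nontrivial
  have hkp : (RingHom.ker Ψ.toRingHom).IsPrime := RingHom.ker_isPrime _
  obtain ⟨P, hP, hPle⟩ := Ideal.exists_minimalPrimes_le (I := ⊥) (J := RingHom.ker Ψ.toRingHom)
    bot_le
  have : P.IsPrime := Ideal.IsMinimalPrime.isPrime hP
  have : Module.Free ℤ R := Module.free_of_finite_type_torsion_free'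
  have hPinj : Function.Injective (algebraMap ℤ_[p] ((ℤ_[p] ⊗[ℤ] R) ⧸ P)) := by
    rw [injective_iff_map_eq_zero]
    intro a ha
    exact eq_zero_of_algebraMap_mem_minimalPrimes hP (Ideal.Quotient.eq_zero_iff_mem.mp ha)
  let Ψ' : (ℤ_[p] ⊗[ℤ] R) ⧸ P →+* k := Ideal.Quotient.lift P Ψ.toRingHom fun a ha => hPle ha
  obtain ⟨E, g, j, hj⟩ :=
    exists_dvr_lift_of_domain (D := (ℤ_[p] ⊗[ℤ] R) ⧸ P) hPinj hk Ψ'
  refine ⟨E, (g.toRingHom.comp (Ideal.Quotient.mk P)).comp
    (Algebra.TensorProduct.includeRight (R := ℤ) (A := ℤ_[p]) (B := R)).toRingHom, j, fun r => ?_⟩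
  refine (hj (Ideal.Quotient.mk P (1 ⊗ₜ r))).trans ?_
  show Ψ (1 ⊗ₜ r) = _
  simp [Ψ]

end FLTA.RepTheory
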