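import Fermat.Agent.RepTheory.Basic

/-!
# Absolute irreducibility = spanning
-/

set_option autoImplicit false

open Polynomial TensorProduct

namespace FLTA.RepTheory

section General

variable {k : Type*} [Field k] {G : Type*} [Monoid G] {V : Type*} [AddCommGroup V] [Module k V]

/-- A spanning representation has no nontrivial invariant subspaces. -/
theorem eq_bot_or_eq_top_of_spans {ρ : G →* Module.End k V} (h : Spans ρ) (W : Submodule k V)
    (hW : ∀ g, ∀ x ∈ W, ρ g x ∈ W) : W = ⊥ ∨ W = ⊤ := by
  refine or_iff_not_imp_left.mpr fun hne => eq_top_iff.mpr fun y _ => ?_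
  obtain ⟨x, hx, hx0⟩ := W.ne_bot_iff.mp hne
  obtain ⟨φ, hφ⟩ := Module.Projective.exists_dual_ne_zero k hx0
  have key : ∀ f : Module.End k V, ∀ z ∈ W, f z ∈ W := by
    intro f
    have hf : f ∈ Submodule.span k (Set.range ρ) := by rw [h]; trivial
    induction hf using Submodule.span_induction with
    | mem a ha => obtain ⟨g, rfl⟩ := ha; exact hW g
    | zero => intro z _; simp
    | add a b _ _ ha hb => intro z hz; exact W.add_mem (ha z hz) (hb z hz)
    | smul r a _ ha => intro z hz; exact W.smul_mem r (ha z hz)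
  have := key ((φ x)⁻¹ • φ.smulRight y) x hx
  simpa [hφ] using this

/-- Burnside over an algebraically closed field. -/
theorem spans_of_forall_invariant_isAlgClosed [IsAlgClosed k] [Module.Finite k V] [Nontrivial V]
    {ρ : G →* Module.End k V}
    (h : ∀ W : Submodule k V, (∀ g, ∀ x ∈ W, ρ g x ∈ W) → W = ⊥ ∨ W = ⊤) : Spans ρ := by
  let S : Subalgebra k (Module.End k V) := Algebra.adjoin k (Set.range ρ)
  have hS : Subalgebra.toSubmodule S = Submodule.span k (Set.range ρ) := by
    rw [Algebra.adjoin_eq_span]
    congr 1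
    exact congrArg SetLike.coe (Submonoid.closure_eq (MonoidHom.mrange ρ))
  have : IsSimpleModule S V := by
    rw [isSimpleModule_iff]
    have : Nontrivial (Submodule S V) := (Submodule.nontrivial_iff S).mpr inferInstance
    refine ⟨fun W => ?_⟩
    rcases h (W.restrictScalars k) (fun g x hx =>
      W.smul_mem ⟨ρ g, Algebra.subset_adjoin ⟨g, rfl⟩⟩ hx) with h' | h'
    · exact Or.inl (Submodule.restrictScalars_injective k S V (by simpa using h'))
    · exact Or.inr (Submodule.restrictScalars_injective k S V (by simpa using h'))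
  have : Module.Finite (Module.End S V) V := Module.Finite.of_restrictScalars_finite k _ _
  refine eq_top_iff.mpr fun f _ => ?_
  let f' : Module.End (Module.End S V) V :=
    { toFun := f
      map_add' := map_add f
      map_smul' := fun φ x => by
        obtain ⟨t, ht⟩ :=
          (IsSimpleModule.algebraMap_end_bijective_of_isAlgClosed (A := S) (V := V) k).2 φ
        subst ht
        simp }
  obtain ⟨a, ha⟩ := Module.Finite.toModuleEnd_moduleEnd_surjective (R := S) (M := V) f'
  rw [← hS]
  have : (a : Module.End k V) = f := LinearMap.ext fun x => congr($ha x)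
  exact this ▸ a.2

theorem spans_iff_matHom {ι : Type*} [Fintype ι] [DecidableEq ι] {A : Type*} [CommRing A]
    {V : Type*} [AddCommGroup V] [Module A V] (b : Module.Basis ι A V) (ρ : G →* Module.End A V) :
    Spans ρ ↔ Submodule.span A (Set.range (matHom b ρ)) = ⊤ := by
  have hr : Set.range (matHom b ρ) = (LinearMap.toMatrix b b).toLinearMap '' Set.range ρ := by
    rw [← Set.range_comp]; rfl
  rw [hr, Submodule.span_image, Submodule.map_equiv_eq_comap_symm, Spans]
  constructor
  · intro h; rw [h, Submodule.comap_top]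
  · intro h
    exact Submodule.comap_injective_of_surjective (LinearMap.toMatrix b b).symm.surjective
      (by simpa using h)

theorem span_map_algebraMap_eq_top_iff {ι κ : Type*} [Fintype ι] [DecidableEq ι] [Fintype κ]
    [DecidableEq κ] {k' : Type*} [Field k'] [Algebra k k'] (s : Set (Matrix ι κ k)) :
    Submodule.span k' ((fun M => M.map (algebraMap k k')) '' s) = ⊤ ↔
      Submodule.span k s = ⊤ := by
  constructor
  · intro h
    by_contra hne
    obtain ⟨f, hf0, hf⟩ := Submodule.exists_le_ker_of_lt_top _ (lt_top_iff_ne_top.mpr hne)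
    let f' : Matrix ι κ k' →ₗ[k'] k' :=
      ∑ i, ∑ j, algebraMap k k' (f (Matrix.single i j 1)) •
        Matrix.entryLinearMap k' k' i j
    have hf' : ∀ M : Matrix ι κ k, f' (M.map (algebraMap k k')) = algebraMap k k' (f M) := by
      intro M
      conv_rhs => rw [Matrix.matrix_eq_sum_single M]
      simp only [map_sum, f', LinearMap.sum_apply, LinearMap.smul_apply,
        Matrix.entryLinearMap_apply, Matrix.map_apply, smul_eq_mul]
      refine Finset.sum_congr rfl fun i _ => Finset.sum_congr rfl fun j _ => ?_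
      rw [← map_mul, mul_comm, ← smul_eq_mul, ← map_smul, Matrix.smul_single, smul_eq_mul, mul_one]
    have hzero : f' = 0 := by
      have : (⊤ : Submodule k' (Matrix ι κ k')) ≤ LinearMap.ker f' := by
        rw [← h, Submodule.span_le]
        rintro _ ⟨M, hM, rfl⟩
        rw [SetLike.mem_coe, LinearMap.mem_ker, hf', LinearMap.mem_ker.mp (hf (Submodule.subset_span hM)),
          map_zero]
      exact LinearMap.ker_eq_top.mp (top_le_iff.mp this)
    exact hf0 (LinearMap.ext fun M => (algebraMap k k').injective
      (by rw [← hf', hzero]; simp))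
  · intro h
    refine eq_top_iff.mpr fun M _ => ?_
    rw [Matrix.matrix_eq_sum_single M]
    refine Submodule.sum_mem _ fun i _ => Submodule.sum_mem _ fun j _ => ?_
    have key : ∀ N : Matrix ι κ k, N.map (algebraMap k k') ∈
        Submodule.span k' ((fun M => M.map (algebraMap k k')) '' s) := by
      intro N
      have hN : N ∈ Submodule.span k s := by rw [h]; trivial
      induction hN using Submodule.span_induction with
      | mem a ha => exact Submodule.subset_span ⟨a, ha, rfl⟩
      | zero => simp
      | add a b _ _ ha hb =>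
        rw [Matrix.map_add _ (map_add _)]; exact Submodule.add_mem _ ha hb
      | smul r a _ ha =>
        have : (r • a).map (algebraMap k k') = algebraMap k k' r • a.map (algebraMap k k') := by
          ext; simp
        rw [this]; exact Submodule.smul_mem _ _ ha
    have h1 := Submodule.smul_mem _ (M i j) (key (Matrix.single i j 1))
    have h2 : (M i j) • (Matrix.single i j (1 : k)).map (algebraMap k k') =
        Matrix.single i j (M i j) := by
      ext a b; by_cases hab : i = a ∧ j = b <;> simp [Matrix.single_apply, hab]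
    rwa [h2] at h1

theorem spans_baseChange_iff [Module.Finite k V] (k' : Type*) [Field k'] [Algebra k k']
    (ρ : G →* Module.End k V) :
    Spans (((Module.End.baseChangeHom k k' V).toRingHom.toMonoidHom).comp ρ) ↔ Spans ρ := by
  let b := Module.finBasis k V
  rw [spans_iff_matHom b ρ, spans_iff_matHom (Algebra.TensorProduct.basis k' b),
    ← span_map_algebraMap_eq_top_iff (k' := k') (Set.range (matHom b ρ)), ← Set.range_comp]
  have : (⇑(matHom (Algebra.TensorProduct.basis k' b)
      (((Module.End.baseChangeHom k k' V).toRingHom.toMonoidHom).comp ρ))) =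
      (fun M => M.map (algebraMap k k')) ∘ ⇑(matHom b ρ) :=
    funext fun g => LinearMap.toMatrix_baseChange k' (ρ g) b b
  rw [this]

theorem spans_of_equiv {A : Type*} [CommRing A] {V W : Type*} [AddCommGroup V] [Module A V]
    [AddCommGroup W] [Module A W] {ρ : G →* Module.End A V} {ρ' : G →* Module.End A W}
    (e : V ≃ₗ[A] W) (he : ∀ g x, e (ρ g x) = ρ' g (e x)) (h : Spans ρ) : Spans ρ' := by
  have hconj : ∀ g, ρ' g = e.conj (ρ g) := fun g => LinearMap.ext fun x => by
    rw [LinearEquiv.conj_apply_apply, he, LinearEquiv.apply_symm_apply]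
  have hr : Set.range ρ' = e.conj.toLinearMap '' Set.range ρ := by
    rw [← Set.range_comp]; exact congrArg Set.range (funext hconj)
  rw [Spans, hr, Submodule.span_image, h, Submodule.map_top, LinearMap.range_eq_top]
  exact e.conj.surjective

/-- Two-dimensional matrix criterion for spanning. -/
theorem span_eq_top_of_diagonal {A : Type*} [CommRing A] (M : G →* Matrix (Fin 2) (Fin 2) A)
    {c : G} {x y : A} (hxy : IsUnit (x - y)) (hc : M c = Matrix.diagonal ![x, y])
    {g h : G} (hg : IsUnit (M g 0 1)) (hh : IsUnit (M h 1 0)) :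
    Submodule.span A (Set.range M) = ⊤ := by
  let S : Submodule A (Matrix (Fin 2) (Fin 2) A) := Submodule.span A (Set.range M)
  have hmul : ∀ {a b}, a ∈ S → b ∈ S → a * b ∈ S := by
    intro a b ha hb
    have hab : a * b ∈ S * S := Submodule.mul_mem_mul ha hb
    rw [Submodule.span_mul_span] at hab
    refine Submodule.span_mono ?_ hab
    rintro _ ⟨_, ⟨p, rfl⟩, _, ⟨q, rfl⟩, rfl⟩
    exact ⟨p * q, map_mul M p q⟩
  have h1 : (1 : Matrix (Fin 2) (Fin 2) A) ∈ S := Submodule.subset_span ⟨1, map_one M⟩
  have hc' : M c ∈ S := Submodule.subset_span ⟨c, rfl⟩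
  obtain ⟨d, hd⟩ := hxy
  have hd' : (↑d⁻¹ : A) * (x - y) = 1 := by rw [← hd, Units.inv_mul]
  have h00 : Matrix.single 0 0 (1 : A) ∈ S := by
    have := S.smul_mem (↑d⁻¹ : A) (S.sub_mem hc' (S.smul_mem y h1))
    convert this using 1
    ext i j
    fin_cases i <;> fin_cases j <;> simp [hc, hd']
  have h11 : Matrix.single 1 1 (1 : A) ∈ S := by
    convert S.sub_mem h1 h00 using 1
    ext i j
    fin_cases i <;> fin_cases j <;> simp
  obtain ⟨u, hu⟩ := hg
  obtain ⟨v, hv⟩ := hh
  have h01 : Matrix.single 0 1 (1 : A) ∈ S := by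
    have := S.smul_mem (↑u⁻¹ : A) (hmul (hmul h00 (Submodule.subset_span ⟨g, rfl⟩)) h11)
    convert this using 1
    rw [Matrix.single_mul_mul_single, one_mul, mul_one, Matrix.smul_single, smul_eq_mul, ← hu,
      Units.inv_mul]
  have h10 : Matrix.single 1 0 (1 : A) ∈ S := by
    have := S.smul_mem (↑v⁻¹ : A) (hmul (hmul h11 (Submodule.subset_span ⟨h, rfl⟩)) h00)
    convert this using 1
    rw [Matrix.single_mul_mul_single, one_mul, mul_one, Matrix.smul_single, smul_eq_mul, ← hv,
      Units.inv_mul]
  have hall : ∀ i j : Fin 2, Matrix.single i j (1 : A) ∈ S := by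
    intro i j
    fin_cases i <;> fin_cases j <;> assumption
  refine eq_top_iff.mpr fun m _ => ?_
  rw [Matrix.matrix_eq_sum_single m]
  refine Submodule.sum_mem _ fun i _ => Submodule.sum_mem _ fun j _ => ?_
  simpa [Matrix.smul_single] using S.smul_mem (m i j) (hall i j)

end General

section Residual

variable {k : Type} [Field k]

theorem isAbsolutelyIrreducible_iff_spans (ρ : ResidualGaloisRep k) :
    ρ.IsAbsolutelyIrreducible ↔ Spans ρ.ρ := by
  rw [← spans_baseChange_iff (AlgebraicClosure k) ρ.ρ]
  constructor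
  · intro h
    have : Nontrivial (AlgebraicClosure k ⊗[k] ρ.V) :=
      Module.nontrivial_of_finrank_eq_succ (ρ.baseChange (AlgebraicClosure k)).finrank_eq
    exact spans_of_forall_invariant_isAlgClosed h
  · intro h W hW
    exact eq_bot_or_eq_top_of_spans h W hW

theorem isIrreducible_of_isAbsolutelyIrreducible {ρ : ResidualGaloisRep k}
    (h : ρ.IsAbsolutelyIrreducible) : ρ.IsIrreducible :=
  fun W hW => eq_bot_or_eq_top_of_spans ((isAbsolutelyIrreducible_iff_spans ρ).mp h) W hW

theorem isAbsolutelyIrreducible_baseChangeAlong_iff {k' : Type} [Field k'] (φ : k →+* k')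
    (ρ : ResidualGaloisRep k) :
    (ρ.baseChangeAlong φ).IsAbsolutelyIrreducible ↔ ρ.IsAbsolutelyIrreducible := by
  let : Algebra k k' := φ.toAlgebra
  rw [isAbsolutelyIrreducible_iff_spans, isAbsolutelyIrreducible_iff_spans]
  exact spans_baseChange_iff k' ρ.ρ

theorem isAbsolutelyIrreducible_of_isEquiv {ρ₁ ρ₂ : ResidualGaloisRep k} (h : ρ₁.IsEquiv ρ₂)
    (ha : ρ₁.IsAbsolutelyIrreducible) : ρ₂.IsAbsolutelyIrreducible := by
  obtain ⟨e⟩ := h
  rw [isAbsolutelyIrreducible_iff_spans] at ha ⊢
  exact spans_of_equiv e.toLinearEquiv e.map_apply ha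

/-- An irreducible two dimensional representation with an element having two distinct
eigenvalues in `k` is absolutely irreducible. -/
theorem isAbsolutelyIrreducible_of_eigenvalues {ρ : ResidualGaloisRep k} (h : ρ.IsIrreducible)
    {σ : AlgebraicClosure ℚ ≃ₐ[ℚ] AlgebraicClosure ℚ} {x y : k} (hxy : x ≠ y)
    (hσ : (ρ.ρ σ).charpoly = (X - C x) * (X - C y)) : ρ.IsAbsolutelyIrreducible := by
  rw [isAbsolutelyIrreducible_iff_spans]
  have hev : ∀ a ∈ ({x, y} : Set k), Module.End.HasEigenvalue (ρ.ρ σ) a := by
    intro a ha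
    rw [Module.End.hasEigenvalue_iff_isRoot_charpoly, hσ]
    rcases ha with rfl | rfl <;> simp
  obtain ⟨v, hv⟩ := (hev x (by simp)).exists_hasEigenvector
  obtain ⟨w, hw⟩ := (hev y (by simp)).exists_hasEigenvector
  have hli : LinearIndependent k ![v, w] := by
    refine Module.End.eigenvectors_linearIndependent' (ρ.ρ σ) ![x, y] ?_ _ ?_
    · intro i j hij
      fin_cases i <;> fin_cases j <;> simp_all [eq_comm]
    · intro i
      fin_cases i
      · exact hv
      · exact hw
  let b := basisOfLinearIndependentOfCardEqFinrank hli (by simp [ρ.finrank_eq])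
  have hb0 : b 0 = v := by simp [b]
  have hb1 : b 1 = w := by simp [b]
  have hc : matHom b ρ.ρ σ = Matrix.diagonal ![x, y] := by
    ext i j
    rw [matHom_apply, LinearMap.toMatrix_apply]
    fin_cases j
    · simp only [Fin.zero_eta, hb0, hv.apply_eq_smul, map_smul]
      rw [← hb0, b.repr_self]
      fin_cases i <;> simp
    · simp only [Fin.mk_one, hb1, hw.apply_eq_smul, map_smul]
      rw [← hb1, b.repr_self]
      fin_cases i <;> simp
  have key : ∀ j i : Fin 2, i ≠ j → ∃ g, matHom b ρ.ρ g i j ≠ 0 := by
    intro j i hij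
    by_contra hcon
    push_neg at hcon
    have hW : ∀ g, ∀ z ∈ (k ∙ b j), ρ.ρ g z ∈ (k ∙ b j) := by
      intro g z hz
      obtain ⟨r, rfl⟩ := Submodule.mem_span_singleton.mp hz
      rw [map_smul]
      refine Submodule.smul_mem _ r (Submodule.mem_span_singleton.mpr ⟨b.repr (ρ.ρ g (b j)) j, ?_⟩)
      conv_rhs => rw [← b.sum_repr (ρ.ρ g (b j))]
      rw [Finset.sum_eq_single j _ (by simp)]
      intro l _ hl
      have hli : l = i := by omega
      have := hcon g
      rw [matHom_apply, LinearMap.toMatrix_apply] at this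
      rw [hli, this, zero_smul]
    rcases h _ hW with h' | h'
    · exact b.ne_zero j (Submodule.span_singleton_eq_bot.mp h')
    · have := finrank_span_singleton (K := k) (b.ne_zero j)
      rw [h', finrank_top, ρ.finrank_eq] at this
      omega
  obtain ⟨g, hg⟩ := key 1 0 (by decide)
  obtain ⟨g', hg'⟩ := key 0 1 (by decide)
  rw [spans_iff_matHom b]
  exact span_eq_top_of_diagonal _ (sub_ne_zero.mpr hxy).isUnit hc hg.isUnit hg'.isUnit

/-- Odd irreducible representations in characteristic `≠ 2` are absolutely irreducible. -/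
theorem isAbsolutelyIrreducible_of_isOdd {ρ : ResidualGaloisRep k} (h : ρ.IsIrreducible)
    (h2 : (2 : k) ≠ 0) {c : AlgebraicClosure ℚ ≃ₐ[ℚ] AlgebraicClosure ℚ} (hc : c * c = 1)
    (hdet : LinearMap.det (ρ.ρ c) = -1) : ρ.IsAbsolutelyIrreducible := by
  refine isAbsolutelyIrreducible_of_eigenvalues h (σ := c) (x := 1) (y := -1) ?_ ?_
  · intro h'
    exact h2 (by linear_combination h')
  have hcp := charpoly_of_finrank_two ρ.finrank_eq (ρ.ρ c)
  rw [hdet] at hcp
  have hCH := LinearMap.aeval_self_charpoly (ρ.ρ c)
  rw [hcp] at hCH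
  have hsq : ρ.ρ c * ρ.ρ c = 1 := by rw [← map_mul, hc, map_one]
  simp only [map_add, map_sub, map_mul, map_pow, aeval_X, aeval_C, sq, hsq, map_neg, map_one,
    ← Algebra.smul_def] at hCH
  have hne : ρ.ρ c ≠ 0 := by
    intro h0
    rw [h0, LinearMap.det_zero, ρ.finrank_eq] at hdet
    simp at hdet
  have ht : LinearMap.trace k ρ.V (ρ.ρ c) = 0 := by
    have : LinearMap.trace k ρ.V (ρ.ρ c) • ρ.ρ c = 0 := by
      linear_combination (norm := module) -hCH
    exact (smul_eq_zero.mp this).resolve_right hne
  rw [hcp, ht]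
  simp only [map_zero, map_neg, map_one]
  ring

end Residual

end FLTA.RepTheory
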