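import Mathlib
import Fermat.Prelude.Def_GaloisRep_Adic

/-!
# Two-dimensional representations: basic API (trace, determinant, characteristic polynomial)
-/

set_option autoImplicit false

open Polynomial TensorProduct

namespace FLTA.RepTheory

section General

variable {A : Type*} [CommRing A] {G : Type*} [Monoid G]
  {V : Type*} [AddCommGroup V] [Module A V] {W : Type*} [AddCommGroup W] [Module A W]

/-- The image of `ρ` spans the endomorphism module. Over a field this is absolute irreducibility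
(Burnside); over a local ring it is residual absolute irreducibility. -/
def Spans (ρ : G →* Module.End A V) : Prop :=
  Submodule.span A (Set.range ρ) = ⊤

/-- The matrices of a representation in a basis. -/
noncomputable def matHom {ι : Type*} [Fintype ι] [DecidableEq ι] (b : Module.Basis ι A V)
    (ρ : G →* Module.End A V) : G →* Matrix ι ι A :=
  (LinearMap.toMatrixAlgEquiv b).toAlgHom.toRingHom.toMonoidHom.comp ρ

theorem matHom_apply {ι : Type*} [Fintype ι] [DecidableEq ι] (b : Module.Basis ι A V)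
    (ρ : G →* Module.End A V) (g : G) : matHom b ρ g = LinearMap.toMatrix b b (ρ g) := rfl

theorem matHom_trace {ι : Type*} [Fintype ι] [DecidableEq ι] (b : Module.Basis ι A V)
    (ρ : G →* Module.End A V) (g : G) : (matHom b ρ g).trace = LinearMap.trace A V (ρ g) :=
  (LinearMap.trace_eq_matrix_trace A b _).symm

/-- The characteristic polynomial of an endomorphism of a rank two module. -/
theorem charpoly_of_finrank_two [Nontrivial A] [Module.Free A V] [Module.Finite A V]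
    (h : Module.finrank A V = 2) (f : Module.End A V) :
    f.charpoly = X ^ 2 - C (LinearMap.trace A V f) * X + C (LinearMap.det f) := by
  let b := Module.finBasisOfFinrankEq A V h
  rw [← LinearMap.charpoly_toMatrix f b, Matrix.charpoly_fin_two,
    LinearMap.trace_eq_matrix_trace A b, LinearMap.det_toMatrix]

theorem trace_eq_of_charpoly {a d : A} [Nontrivial A] [Module.Free A V] [Module.Finite A V]
    (h : Module.finrank A V = 2) {f : Module.End A V}
    (hf : f.charpoly = X ^ 2 - C a * X + C d) :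
    LinearMap.trace A V f = a ∧ LinearMap.det f = d := by
  rw [charpoly_of_finrank_two h] at hf
  have h1 := congrArg (coeff · 1) hf
  have h0 := congrArg (coeff · 0) hf
  simp [coeff_X_pow] at h1 h0
  exact ⟨h1, h0⟩

theorem trace_eq_of_charpoly_eq [Nontrivial A] [Module.Free A V] [Module.Finite A V]
    [Module.Free A W] [Module.Finite A W]
    (hV : Module.finrank A V = 2) (hW : Module.finrank A W = 2)
    {f : Module.End A V} {f' : Module.End A W} (h : f.charpoly = f'.charpoly) :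
    LinearMap.trace A V f = LinearMap.trace A W f' ∧ LinearMap.det f = LinearMap.det f' :=
  trace_eq_of_charpoly hV (h.trans (charpoly_of_finrank_two hW f'))

end General

section Adic

variable {A : Type} [CommRing A] [IsLocalRing A]

theorem adic_charpoly_eq (ρ : GaloisRepAdic A) (σ : AlgebraicClosure ℚ ≃ₐ[ℚ] AlgebraicClosure ℚ) :
    (ρ.ρ σ).charpoly = X ^ 2 - C (ρ.trace σ) * X + C (LinearMap.det (ρ.ρ σ)) :=
  charpoly_of_finrank_two ρ.finrank_eq _

theorem det_val (ρ : GaloisRepAdic A) (σ : AlgebraicClosure ℚ ≃ₐ[ℚ] AlgebraicClosure ℚ) :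
    (ρ.det σ : A) = LinearMap.det (ρ.ρ σ) := rfl

theorem trace_baseChangeAlong {B : Type} [CommRing B] [IsLocalRing B] (φ : A →+* B)
    (hφ : IsLocalHom φ) (ρ : GaloisRepAdic A) (σ : AlgebraicClosure ℚ ≃ₐ[ℚ] AlgebraicClosure ℚ) :
    (ρ.baseChangeAlong φ hφ).trace σ = φ (ρ.trace σ) :=
  let : Algebra A B := φ.toAlgebra
  LinearMap.trace_baseChange (ρ.ρ σ) B

theorem charpoly_baseChangeAlong {B : Type} [CommRing B] [IsLocalRing B] (φ : A →+* B)
    (hφ : IsLocalHom φ) (ρ : GaloisRepAdic A) (σ : AlgebraicClosure ℚ ≃ₐ[ℚ] AlgebraicClosure ℚ) :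
    ((ρ.baseChangeAlong φ hφ).ρ σ).charpoly = (ρ.ρ σ).charpoly.map φ :=
  let : Algebra A B := φ.toAlgebra
  LinearMap.charpoly_baseChange (ρ.ρ σ) (A := B)

theorem charpoly_residual (ρ : GaloisRepAdic A) (σ : AlgebraicClosure ℚ ≃ₐ[ℚ] AlgebraicClosure ℚ) :
    (ρ.residual.ρ σ).charpoly = (ρ.ρ σ).charpoly.map (IsLocalRing.residue A) :=
  LinearMap.charpoly_baseChange (ρ.ρ σ) (A := IsLocalRing.ResidueField A)

theorem trace_residual (ρ : GaloisRepAdic A) (σ : AlgebraicClosure ℚ ≃ₐ[ℚ] AlgebraicClosure ℚ) :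
    LinearMap.trace _ _ (ρ.residual.ρ σ) = IsLocalRing.residue A (ρ.trace σ) :=
  LinearMap.trace_baseChange (ρ.ρ σ) (IsLocalRing.ResidueField A)

theorem det_residual (ρ : GaloisRepAdic A) (σ : AlgebraicClosure ℚ ≃ₐ[ℚ] AlgebraicClosure ℚ) :
    LinearMap.det (ρ.residual.ρ σ) = IsLocalRing.residue A (LinearMap.det (ρ.ρ σ)) :=
  LinearMap.det_baseChange (ρ.ρ σ)

theorem isUnramifiedAt_residual {ρ : GaloisRepAdic A} {q : ℕ} (h : ρ.IsUnramifiedAt q) :
    ρ.residual.IsUnramifiedAt q := fun P hP σ hσ => by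
  show (ρ.ρ σ).baseChange _ = 1
  rw [h P hP σ hσ, LinearMap.baseChange_one]

theorem isUnramifiedAt_baseChangeAlong {B : Type} [CommRing B] [IsLocalRing B] (φ : A →+* B)
    (hφ : IsLocalHom φ) {ρ : GaloisRepAdic A} {q : ℕ} (h : ρ.IsUnramifiedAt q) :
    (ρ.baseChangeAlong φ hφ).IsUnramifiedAt q := fun P hP σ hσ => by
  let : Algebra A B := φ.toAlgebra
  show (ρ.ρ σ).baseChange B = 1
  rw [h P hP σ hσ, LinearMap.baseChange_one]

theorem adicEquiv_conj {ρ₁ ρ₂ : GaloisRepAdic A} (e : GaloisRepAdic.Equiv ρ₁ ρ₂)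
    (σ : AlgebraicClosure ℚ ≃ₐ[ℚ] AlgebraicClosure ℚ) :
    e.toLinearEquiv.conj (ρ₁.ρ σ) = ρ₂.ρ σ :=
  LinearMap.ext fun x => by
    rw [LinearEquiv.conj_apply_apply, e.map_apply, LinearEquiv.apply_symm_apply]

theorem charpoly_eq_of_isEquiv {ρ₁ ρ₂ : GaloisRepAdic A} (h : ρ₁.IsEquiv ρ₂)
    (σ : AlgebraicClosure ℚ ≃ₐ[ℚ] AlgebraicClosure ℚ) :
    (ρ₁.ρ σ).charpoly = (ρ₂.ρ σ).charpoly := by
  obtain ⟨e⟩ := h
  rw [← adicEquiv_conj e σ, LinearEquiv.charpoly_conj]

theorem trace_eq_of_isEquiv {ρ₁ ρ₂ : GaloisRepAdic A} (h : ρ₁.IsEquiv ρ₂)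
    (σ : AlgebraicClosure ℚ ≃ₐ[ℚ] AlgebraicClosure ℚ) :
    ρ₁.trace σ = ρ₂.trace σ :=
  (trace_eq_of_charpoly_eq ρ₁.finrank_eq ρ₂.finrank_eq (charpoly_eq_of_isEquiv h σ)).1

theorem isUnramifiedAt_of_isEquiv {ρ₁ ρ₂ : GaloisRepAdic A} (h : ρ₁.IsEquiv ρ₂) {q : ℕ}
    (hu : ρ₁.IsUnramifiedAt q) : ρ₂.IsUnramifiedAt q := fun P hP σ hσ => by
  obtain ⟨e⟩ := h
  rw [← adicEquiv_conj e σ, hu P hP σ hσ]
  exact LinearEquiv.conj_id _

/-- Adic continuity in the form: for each `n` a finite level acts trivially modulo `m ^ n`,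
checked on a basis. -/
theorem isAdicContinuous_of_matrix {ι : Type} [Fintype ι] [DecidableEq ι] {V : Type}
    [AddCommGroup V] [Module A V] (b : Module.Basis ι A V)
    (ρ : (AlgebraicClosure ℚ ≃ₐ[ℚ] AlgebraicClosure ℚ) →* Module.End A V)
    (h : ∀ n : ℕ, ∃ L : IntermediateField ℚ (AlgebraicClosure ℚ), FiniteDimensional ℚ L ∧
      ∀ σ : AlgebraicClosure ℚ ≃ₐ[ℚ] AlgebraicClosure ℚ, (∀ x ∈ L, σ x = x) →
        ∀ i j, matHom b ρ σ i j - (1 : Matrix ι ι A) i j ∈ IsLocalRing.maximalIdeal A ^ n) :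
    GaloisActionIsAdicContinuous A ρ := by
  intro n
  obtain ⟨L, hL, h1⟩ := h n
  refine ⟨L, hL, fun σ hσ v => ?_⟩
  have hv : ρ σ v - v = (ρ σ - 1) v := rfl
  rw [hv, ← b.sum_repr v, map_sum]
  refine Submodule.sum_mem _ fun j _ => ?_
  rw [map_smul, ← b.sum_repr ((ρ σ - 1) (b j))]
  refine Submodule.smul_mem _ _ (Submodule.sum_mem _ fun i _ => ?_)
  refine Submodule.smul_mem_smul ?_ Submodule.mem_top
  have := h1 σ hσ i j
  rw [matHom_apply, LinearMap.toMatrix_apply] at this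
  rw [LinearMap.sub_apply, Module.End.one_apply, map_sub, Finsupp.sub_apply, b.repr_self,
    Finsupp.single_apply]
  rw [Matrix.one_apply] at this
  simpa [eq_comm] using this

end Adic

section Residual

variable {k : Type} [Field k]

theorem residualEquiv_conj {ρ₁ ρ₂ : ResidualGaloisRep k} (e : ResidualGaloisRep.Equiv ρ₁ ρ₂)
    (σ : AlgebraicClosure ℚ ≃ₐ[ℚ] AlgebraicClosure ℚ) :
    e.toLinearEquiv.conj (ρ₁.ρ σ) = ρ₂.ρ σ :=
  LinearMap.ext fun x => by
    rw [LinearEquiv.conj_apply_apply, e.map_apply, LinearEquiv.apply_symm_apply]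

theorem residual_charpoly_eq_of_isEquiv {ρ₁ ρ₂ : ResidualGaloisRep k} (h : ρ₁.IsEquiv ρ₂)
    (σ : AlgebraicClosure ℚ ≃ₐ[ℚ] AlgebraicClosure ℚ) :
    (ρ₁.ρ σ).charpoly = (ρ₂.ρ σ).charpoly := by
  obtain ⟨e⟩ := h
  rw [← residualEquiv_conj e σ, LinearEquiv.charpoly_conj]

theorem residual_charpoly_baseChangeAlong {k' : Type} [Field k'] (φ : k →+* k')
    (ρ : ResidualGaloisRep k) (σ : AlgebraicClosure ℚ ≃ₐ[ℚ] AlgebraicClosure ℚ) :
    ((ρ.baseChangeAlong φ).ρ σ).charpoly = (ρ.ρ σ).charpoly.map φ :=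
  let : Algebra k k' := φ.toAlgebra
  LinearMap.charpoly_baseChange (ρ.ρ σ) (A := k')

theorem residual_isUnramifiedAt_baseChangeAlong {k' : Type} [Field k'] (φ : k →+* k')
    {ρ : ResidualGaloisRep k} {q : ℕ} (h : ρ.IsUnramifiedAt q) :
    (ρ.baseChangeAlong φ).IsUnramifiedAt q := fun P hP σ hσ => by
  let : Algebra k k' := φ.toAlgebra
  show (ρ.ρ σ).baseChange k' = 1
  rw [h P hP σ hσ, LinearMap.baseChange_one]

end Residual

end FLTA.RepTheory
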