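import Fermat.Agent.RepTheory.Carayol

/-!
# Realising a representation over a subring containing the traces
-/

set_option autoImplicit false

open Matrix

namespace FLTA.RepTheory

variable {A B : Type*} [CommRing A] [CommRing B] {G : Type*} [Monoid G]

/-- Conjugate a matrix representation by a unit. -/
def conjHom {n : Type*} [Fintype n] [DecidableEq n] (P : (Matrix n n A)ˣ)
    (M : G →* Matrix n n A) : G →* Matrix n n A where
  toFun g := (P : Matrix n n A) * M g * ((P⁻¹ : (Matrix n n A)ˣ) : Matrix n n A)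
  map_one' := by simp
  map_mul' g h := by simp [mul_assoc]

/-- Rank-two descent: if the traces lie in `B`, one element is `diag (l₁, l₂)` with `l₁ - l₂` a
unit of `B`, and some product of an upper-right and a lower-left entry is a unit of `B`, then the
representation is conjugate by a diagonal matrix to one with values in `B`. -/
theorem exists_descent_of_diagonal (φ : B →+* A) (hφ : Function.Injective φ)
    (M : G →* Matrix (Fin 2) (Fin 2) A) (ht : ∀ g, (M g).trace ∈ φ.range)
    {c : G} {l₁ l₂ : B} (hl : IsUnit (l₁ - l₂))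
    (hc : M c = Matrix.diagonal ![φ l₁, φ l₂])
    {g₀ h₀ : G} {u : B} (hu : IsUnit u) (hgh : φ u = M g₀ 0 1 * M h₀ 1 0) :
    ∃ (N : G →* Matrix (Fin 2) (Fin 2) B) (P : (Matrix (Fin 2) (Fin 2) A)ˣ),
      ∀ g, (N g).map φ = (P : Matrix (Fin 2) (Fin 2) A) * M g *
        ((P⁻¹ : (Matrix (Fin 2) (Fin 2) A)ˣ) : Matrix (Fin 2) (Fin 2) A) := by
  have htr : ∀ g, M g 0 0 + M g 1 1 ∈ φ.range := fun g => by
    simpa [Matrix.trace_fin_two] using ht g
  have hctr : ∀ g, φ l₁ * M g 0 0 + φ l₂ * M g 1 1 ∈ φ.range := fun g => by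
    simpa [Matrix.trace_fin_two, map_mul, hc] using ht (c * g)
  obtain ⟨d, hd⟩ := hl
  have hd' : φ (↑d⁻¹ : B) * (φ l₁ - φ l₂) = 1 := by
    rw [← map_sub, ← hd, ← map_mul, Units.inv_mul, map_one]
  have ha : ∀ g, M g 0 0 ∈ φ.range := fun g => by
    have h : M g 0 0 = φ ↑d⁻¹ * ((φ l₁ * M g 0 0 + φ l₂ * M g 1 1) -
        φ l₂ * (M g 0 0 + M g 1 1)) := by linear_combination (-M g 0 0) * hd'
    rw [h]
    exact mul_mem ⟨_, rfl⟩ (sub_mem (hctr g) (mul_mem ⟨_, rfl⟩ (htr g)))
  have hdd : ∀ g, M g 1 1 ∈ φ.range := fun g => by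
    simpa using sub_mem (htr g) (ha g)
  have hbc : ∀ g h, M g 0 1 * M h 1 0 ∈ φ.range := fun g h => by
    have h' : M g 0 1 * M h 1 0 = M (g * h) 0 0 - M g 0 0 * M h 0 0 := by
      simp [Matrix.mul_apply, Fin.sum_univ_two]
    rw [h']
    exact sub_mem (ha _) (mul_mem (ha g) (ha h))
  have hprod : IsUnit (M g₀ 0 1 * M h₀ 1 0) := hgh ▸ hu.map φ
  obtain ⟨b₀, hb₀⟩ := isUnit_of_mul_isUnit_left hprod
  obtain ⟨v, hv⟩ := hu
  let P : (Matrix (Fin 2) (Fin 2) A)ˣ :=
    { val := Matrix.diagonal ![1, (b₀ : A)]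
      inv := Matrix.diagonal ![1, (↑b₀⁻¹ : A)]
      val_inv := by ext i j; fin_cases i <;> fin_cases j <;> simp [Matrix.mul_apply]
      inv_val := by ext i j; fin_cases i <;> fin_cases j <;> simp [Matrix.mul_apply] }
  have hmem : ∀ g i j, conjHom P M g i j ∈ φ.range := by
    intro g i j
    fin_cases i <;> fin_cases j
    · simpa [conjHom, P, Matrix.mul_apply, Matrix.diagonal_apply] using ha g
    · have h1 : conjHom P M g 0 1 = M g 0 1 * ↑b₀⁻¹ := by
        simp [conjHom, P, Matrix.mul_apply, Matrix.diagonal_apply]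
      have hv' : φ (↑v⁻¹ : B) * φ u = 1 := by rw [← hv, ← map_mul, Units.inv_mul, map_one]
      have h2 : M g 0 1 * ↑b₀⁻¹ = φ (↑v⁻¹ : B) * (M g 0 1 * M h₀ 1 0) := by
        rw [hgh, ← hb₀] at hv'
        have hb : (↑b₀⁻¹ : A) * b₀ = 1 := Units.inv_mul b₀
        linear_combination (φ (↑v⁻¹ : B) * M h₀ 1 0 * M g 0 1) * hb +
          (-(M g 0 1 * (↑b₀⁻¹ : A))) * hv'
      show conjHom P M g 0 1 ∈ _
      rw [h1, h2]
      exact mul_mem ⟨_, rfl⟩ (hbc g h₀)
    · have h1 : conjHom P M g 1 0 = M g₀ 0 1 * M g 1 0 := by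
        simp [conjHom, P, Matrix.mul_apply, Matrix.diagonal_apply, hb₀]
      show conjHom P M g 1 0 ∈ _
      exact h1 ▸ hbc g₀ g
    · simpa [conjHom, P, Matrix.mul_apply, Matrix.diagonal_apply, mul_assoc, mul_comm, mul_left_comm]
        using hdd g
  choose N hN using hmem
  have hN' : ∀ g, (Matrix.of (N g)).map φ = conjHom P M g := fun g => Matrix.ext (hN g)
  have hinj : Function.Injective (φ.mapMatrix : Matrix (Fin 2) (Fin 2) B →+* _) := fun X Y h =>
    Matrix.ext fun i j => hφ congr($h i j)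
  exact ⟨{ toFun := fun g => Matrix.of (N g)
           map_one' := hinj (by simp only [RingHom.mapMatrix_apply]; rw [hN']; simp)
           map_mul' := fun g h => hinj (by
             rw [map_mul]; simp only [RingHom.mapMatrix_apply]; rw [hN', hN', hN', map_mul]) },
    P, hN'⟩

/-- An involution of trace zero with `2` invertible is diagonalisable to `diag (1, -1)`. -/
theorem exists_conj_eq_diagonal_one_neg_one [IsLocalRing A] (h2 : IsUnit (2 : A))
    (C : Matrix (Fin 2) (Fin 2) A) (hC : C * C = 1) (htr : C.trace = 0) :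
    ∃ P : (Matrix (Fin 2) (Fin 2) A)ˣ,
      (P : Matrix (Fin 2) (Fin 2) A) * C *
        ((P⁻¹ : (Matrix (Fin 2) (Fin 2) A)ˣ) : Matrix (Fin 2) (Fin 2) A) =
          Matrix.diagonal ![1, -1] := by
  have h00 := congr($hC 0 0)
  simp only [Matrix.mul_apply, Fin.sum_univ_two, Matrix.one_apply_eq] at h00
  rw [Matrix.trace_fin_two] at htr
  have h11 : C 1 1 = -C 0 0 := by linear_combination htr
  obtain ⟨Q, hQ, hQC⟩ : ∃ Q : Matrix (Fin 2) (Fin 2) A, IsUnit Q ∧
      C * Q = Q * Matrix.diagonal ![1, -1] := by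
    have hor : IsUnit (1 + C 0 0) ∨ IsUnit (1 - C 0 0) :=
      IsLocalRing.isUnit_or_isUnit_of_isUnit_add (by
        rwa [show (1 + C 0 0) + (1 - C 0 0) = (2 : A) by ring])
    rcases hor with h | h
    · refine ⟨!![1 + C 0 0, -C 0 1; C 1 0, 1 + C 0 0], ?_, ?_⟩
      · rw [Matrix.isUnit_iff_isUnit_det, Matrix.det_fin_two_of]
        rw [show (1 + C 0 0) * (1 + C 0 0) - -C 0 1 * C 1 0 = 2 * (1 + C 0 0) by
          linear_combination h00]
        exact h2.mul h
      · ext i j
        fin_cases i <;> fin_cases j <;>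
          simp [Matrix.mul_apply, Fin.sum_univ_two, Matrix.diagonal_apply, h11]
        all_goals first | ring1 | linear_combination h00 | linear_combination -h00
    · refine ⟨!![C 0 1, 1 - C 0 0; 1 - C 0 0, -C 1 0], ?_, ?_⟩
      · rw [Matrix.isUnit_iff_isUnit_det, Matrix.det_fin_two_of]
        rw [show C 0 1 * -C 1 0 - (1 - C 0 0) * (1 - C 0 0) = -(2 * (1 - C 0 0)) by
          linear_combination -h00]
        exact (h2.mul h).neg
      · ext i j
        fin_cases i <;> fin_cases j <;>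
          simp [Matrix.mul_apply, Fin.sum_univ_two, Matrix.diagonal_apply, h11]
        all_goals first | ring1 | linear_combination h00 | linear_combination -h00
  obtain ⟨P, rfl⟩ := hQ
  exact ⟨P⁻¹, by rw [inv_inv, mul_assoc, hQC, ← mul_assoc, Units.inv_mul, one_mul]⟩

/-- Glue a family of two-dimensional matrix representations over local rings `A i` to one over a
local ring `B` through which all traces factor: there is an involution `c` of trace zero, `2` is
invertible, and one member is residually absolutely irreducible. -/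
theorem exists_descent_of_involution {ι : Type*} [Nonempty ι] {A : ι → Type*}
    [∀ i, CommRing (A i)] [∀ i, IsLocalRing (A i)] [IsLocalRing B]
    (φ : ∀ i, B →+* A i) (hφloc : ∀ i, IsLocalHom (φ i))
    (hφ : Function.Injective (RingHom.pi φ))
    (M : ∀ i, G →* Matrix (Fin 2) (Fin 2) (A i))
    (t : G → B) (ht : ∀ i g, φ i (t g) = (M i g).trace)
    (h2 : IsUnit (2 : B)) {c : G} (hc : c * c = 1) (htc : t c = 0)
    (i₀ : ι) (hirr : Submodule.span (A i₀) (Set.range (M i₀)) = ⊤) :
    ∃ N : G →* Matrix (Fin 2) (Fin 2) B, ∀ i, ∃ P : (Matrix (Fin 2) (Fin 2) (A i))ˣ,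
      ∀ g, (N g).map (φ i) = (P : Matrix (Fin 2) (Fin 2) (A i)) * M i g *
        ((P⁻¹ : (Matrix (Fin 2) (Fin 2) (A i))ˣ) : Matrix (Fin 2) (Fin 2) (A i)) := by
  obtain ⟨e, he⟩ := h2
  have h2i : ∀ i, IsUnit (2 : A i) := fun i => by
    have := e.isUnit.map (φ i)
    rwa [he, map_ofNat] at this
  have hdiag : ∀ i, ∃ P : (Matrix (Fin 2) (Fin 2) (A i))ˣ,
      conjHom P (M i) c = Matrix.diagonal ![1, -1] := fun i =>
    exists_conj_eq_diagonal_one_neg_one (h2i i) (M i c) (by rw [← map_mul, hc, map_one])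
      (by rw [← ht, htc, map_zero])
  choose P hP using hdiag
  let M' := fun i => conjHom (P i) (M i)
  have htr' : ∀ i g, (M' i g).trace = φ i (t g) := fun i g => by
    rw [ht]
    exact Matrix.trace_units_conj (P i) (M i g)
  -- the glued representation
  let MM : G →* Matrix (Fin 2) (Fin 2) (∀ i, A i) :=
    { toFun := fun g => Matrix.of fun a b i => M' i g a b
      map_one' := Matrix.ext fun a b => funext fun i => by
        simp only [Matrix.of_apply, map_one]
        by_cases hab : a = b <;> simp [Matrix.one_apply, hab]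
      map_mul' := fun g h => Matrix.ext fun a b => funext fun i => by
        simp [Matrix.mul_apply] }
  have ha : ∀ i g, φ i ((↑e⁻¹ : B) * (t g + t (c * g))) = M' i g 0 0 := fun i g => by
    have h1 := htr' i g
    have h2 := htr' i (c * g)
    rw [map_mul (M' i), hP i] at h2
    simp [Matrix.trace_fin_two] at h1 h2
    have he' : φ i (↑e⁻¹ : B) * 2 = 1 := by
      rw [← map_ofNat (φ i) 2, ← he, ← map_mul, Units.inv_mul, map_one]
    rw [map_mul, map_add, ← h1, ← h2]
    linear_combination (M' i g 0 0) * he'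
  have hsp : Submodule.span (A i₀) (Set.range (M' i₀)) = ⊤ := by
    refine eq_top_iff.mpr fun X _ => ?_
    let Q := P i₀
    let cl : Matrix (Fin 2) (Fin 2) (A i₀) →ₗ[A i₀] Matrix (Fin 2) (Fin 2) (A i₀) :=
      LinearMap.mulLeft _ (Q : Matrix (Fin 2) (Fin 2) (A i₀)) ∘ₗ
        LinearMap.mulRight _ ((Q⁻¹ : (Matrix (Fin 2) (Fin 2) (A i₀))ˣ) : Matrix (Fin 2) (Fin 2) (A i₀))
    have hr : Set.range (M' i₀) = cl '' Set.range (M i₀) := by
      rw [← Set.range_comp]
      exact congrArg Set.range (funext fun g => mul_assoc _ _ _)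
    rw [hr, Submodule.span_image, hirr, Submodule.map_top]
    exact ⟨((Q⁻¹ : (Matrix (Fin 2) (Fin 2) (A i₀))ˣ) : Matrix (Fin 2) (Fin 2) (A i₀)) * X * Q, by
      simp [cl, mul_assoc]⟩
  have hentry : ∀ a b : Fin 2, ∃ g, IsUnit (M' i₀ g a b) := by
    intro a b
    by_contra hcon
    push Not at hcon
    have hle : (⊤ : Submodule (A i₀) (Matrix (Fin 2) (Fin 2) (A i₀))) ≤
        Submodule.comap (Matrix.entryLinearMap (A i₀) (A i₀) a b)
          (IsLocalRing.maximalIdeal (A i₀)) := by
      rw [← hsp, Submodule.span_le]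
      rintro _ ⟨g, rfl⟩
      exact (IsLocalRing.mem_maximalIdeal _).mpr (hcon g)
    have h1 : Matrix.single a b (1 : A i₀) a b ∈ IsLocalRing.maximalIdeal (A i₀) :=
      hle (Submodule.mem_top (x := Matrix.single a b (1 : A i₀)))
    rw [Matrix.single_apply_same] at h1
    exact (IsLocalRing.maximalIdeal.isMaximal (A i₀)).ne_top ((Ideal.eq_top_iff_one _).mpr h1)
  obtain ⟨g₀, hg₀⟩ := hentry 0 1
  obtain ⟨h₀, hh₀⟩ := hentry 1 0
  let a' := fun g => (↑e⁻¹ : B) * (t g + t (c * g))
  let u := a' (g₀ * h₀) - a' g₀ * a' h₀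
  have hu' : ∀ i, φ i u = M' i g₀ 0 1 * M' i h₀ 1 0 := fun i => by
    simp only [u, a', map_sub]
    rw [map_mul (φ i) (_ * _) (_ * _), ha, ha, ha, map_mul (M' i)]
    simp [Matrix.mul_apply, Fin.sum_univ_two]
  have hu : IsUnit u := by
    have := hφloc i₀
    exact isUnit_of_map_unit (φ i₀) u (by rw [hu']; exact hg₀.mul hh₀)
  obtain ⟨N, Q, hNQ⟩ := exists_descent_of_diagonal (RingHom.pi φ) hφ MM
    (fun g => ⟨t g, funext fun i => by
      simp [MM, Matrix.trace_fin_two, ← htr' i g]⟩)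
    (c := c) (l₁ := 1) (l₂ := -1) (by rw [sub_neg_eq_add, one_add_one_eq_two, ← he]; exact e.isUnit)
    (Matrix.ext fun a b => funext fun i => by
      show M' i c a b = _
      rw [show M' i c = Matrix.diagonal ![1, -1] from hP i]
      fin_cases a <;> fin_cases b <;> simp)
    hu (g₀ := g₀) (h₀ := h₀) (funext fun i => by simpa [MM] using hu' i)
  refine ⟨N, fun i => ⟨Units.map (Pi.evalRingHom A i).mapMatrix.toMonoidHom Q * P i, fun g => ?_⟩⟩
  have h := congrArg (Pi.evalRingHom A i).mapMatrix (hNQ g)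
  rw [map_mul, map_mul] at h
  have hl : (Pi.evalRingHom A i).mapMatrix ((N g).map (RingHom.pi φ)) = (N g).map (φ i) := rfl
  have hm : (Pi.evalRingHom A i).mapMatrix (MM g) = M' i g := rfl
  rw [hl, hm] at h
  rw [h]
  simp [M', conjHom, mul_assoc]

end FLTA.RepTheory
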