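import Fermat.Prelude.Def_GaloisRep_Adic
import Mathlib.RingTheory.Filtration
import Mathlib.RingTheory.Localization.FractionRing
import Mathlib.LinearAlgebra.FreeModule.PID
import Mathlib.RingTheory.DiscreteValuationRing.Basic
import Mathlib.RingTheory.Localization.Module
import Mathlib.LinearAlgebra.Charpoly.ToMatrix

/-!
# Stable lattices

Adic continuity of Galois actions under quotients, submodules and base change, and the passage
from a stable plane in a vector space spanned by a lattice to a `GaloisRepAdic`.
-/

set_option autoImplicit false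

open scoped TensorProduct

namespace FLTA.RepTheory

local notation "Γℚ" => AlgebraicClosure ℚ ≃ₐ[ℚ] AlgebraicClosure ℚ

section Continuity

variable {A : Type} [CommRing A] [IsLocalRing A]
variable {M : Type} [AddCommGroup M] [Module A M] {ρ : Γℚ →* Module.End A M}
variable {N : Type} [AddCommGroup N] [Module A N] {σN : Γℚ →* Module.End A N}

/-- Adic continuity passes to equivariant quotients. -/
theorem adicContinuous_of_surjective (hc : GaloisActionIsAdicContinuous A ρ)
    (f : M →ₗ[A] N) (hf : Function.Surjective f)
    (heq : ∀ g m, f (ρ g m) = σN g (f m)) : GaloisActionIsAdicContinuous A σN := by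
  intro n
  obtain ⟨L, hL, h⟩ := hc n
  refine ⟨L, hL, fun g hg v => ?_⟩
  obtain ⟨m, rfl⟩ := hf v
  rw [← heq, ← map_sub]
  have h1 := Submodule.mem_map_of_mem (f := f) (h g hg m)
  rw [Submodule.map_smul'', Submodule.map_top] at h1
  exact Submodule.smul_mono le_rfl le_top h1

/-- Adic continuity passes to equivariant submodules of finite modules (Artin-Rees). -/
theorem adicContinuous_of_injective [IsNoetherianRing A] [Module.Finite A M]
    (hc : GaloisActionIsAdicContinuous A ρ) (f : N →ₗ[A] M) (hf : Function.Injective f)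
    (heq : ∀ g n, f (σN g n) = ρ g (f n)) : GaloisActionIsAdicContinuous A σN := by
  intro n
  obtain ⟨k, hk⟩ := Ideal.exists_pow_inf_eq_pow_smul (IsLocalRing.maximalIdeal A)
    (LinearMap.range f)
  obtain ⟨L, hL, h⟩ := hc (n + k)
  refine ⟨L, hL, fun g hg v => ?_⟩
  have h1 : f (σN g v - v) ∈
      IsLocalRing.maximalIdeal A ^ (n + k) • (⊤ : Submodule A M) ⊓ LinearMap.range f :=
    ⟨by rw [map_sub, heq]; exact h g hg (f v), LinearMap.mem_range_self f _⟩
  rw [hk (n + k) (by omega), Nat.add_sub_cancel] at h1
  have h2 : f (σN g v - v) ∈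
      IsLocalRing.maximalIdeal A ^ n • LinearMap.range f :=
    Submodule.smul_mono le_rfl inf_le_right h1
  rw [← Submodule.map_top, ← Submodule.map_smul''] at h2
  obtain ⟨y, hy, hye⟩ := h2
  rwa [← hf hye]

/-- Adic continuity passes to base change along a local homomorphism. -/
theorem adicContinuous_baseChange (hc : GaloisActionIsAdicContinuous A ρ)
    (B : Type) [CommRing B] [IsLocalRing B] [Algebra A B] [IsLocalHom (algebraMap A B)] :
    GaloisActionIsAdicContinuous B ((Module.End.baseChangeHom A B M).toMonoidHom.comp ρ) := by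
  intro n
  obtain ⟨L, hL, h1⟩ := hc n
  refine ⟨L, hL, fun g hg => ?_⟩
  have hmap : (IsLocalRing.maximalIdeal A ^ n).map (algebraMap A B) ≤
      IsLocalRing.maximalIdeal B ^ n := by
    rw [Ideal.map_pow]
    exact Ideal.pow_right_mono (Ideal.map_le_iff_le_comap.mpr fun a ha =>
      Ideal.mem_comap.mpr (map_nonunit (algebraMap A B) a ha)) n
  have hpure : ∀ (b : B) (x : M), b ⊗ₜ[A] ρ g x - b ⊗ₜ[A] x ∈
      (IsLocalRing.maximalIdeal B ^ n) • (⊤ : Submodule B (B ⊗[A] M)) := by
    intro b x
    rw [← TensorProduct.tmul_sub]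
    refine Submodule.smul_induction_on (p := fun y => b ⊗ₜ[A] y ∈
      (IsLocalRing.maximalIdeal B ^ n) • (⊤ : Submodule B (B ⊗[A] M))) (h1 g hg x) ?_ ?_
    · intro a ha w _
      rw [TensorProduct.tmul_smul, TensorProduct.smul_tmul', Algebra.smul_def, ← smul_eq_mul,
        ← TensorProduct.smul_tmul']
      exact Submodule.smul_mem_smul (hmap (Ideal.mem_map_of_mem _ ha)) Submodule.mem_top
    · intro y z hy hz
      rw [TensorProduct.tmul_add]
      exact Submodule.add_mem _ hy hz
  intro w
  induction w using TensorProduct.induction_on with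
  | zero => rw [map_zero, sub_zero]; exact Submodule.zero_mem _
  | tmul b x => exact hpure b x
  | add x y hx hy =>
    rw [map_add, add_sub_add_comm]
    exact Submodule.add_mem _ hx hy

/-- An action trivial on a finite level is adically continuous. -/
theorem adicContinuous_of_finiteLevel (h : GaloisFactorsThroughFiniteLevel ρ) :
    GaloisActionIsAdicContinuous A ρ := by
  intro n
  obtain ⟨L, hL, h1⟩ := h
  refine ⟨L, hL, fun g hg v => ?_⟩
  rw [h1 g hg, Module.End.one_apply, sub_self]
  exact Submodule.zero_mem _

/-- The action on a stable submodule. -/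
def subAction {G : Type*} [Monoid G] {R : Type*} [CommRing R] {X : Type*} [AddCommGroup X]
    [Module R X] (τ : G →* Module.End R X) (W : Submodule R X)
    (hW : ∀ g, ∀ x ∈ W, τ g x ∈ W) : G →* Module.End R W where
  toFun g := (τ g).restrict (hW g)
  map_one' := by ext x; simp [LinearMap.restrict_apply]
  map_mul' g h := by ext x; simp [LinearMap.restrict_apply]

end Continuity

section LatticeRep

variable {O : Type} [CommRing O] [IsDomain O] [IsDiscreteValuationRing O]

/-- A stable rank-two submodule of a finite torsion-free module with continuous action. -/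
noncomputable def galoisRepAdicOfSubmodule {M : Type} [AddCommGroup M] [Module O M]
    [Module.Finite O M] [Module.IsTorsionFree O M] (ρ : Γℚ →* Module.End O M)
    (hc : GaloisActionIsAdicContinuous O ρ) (W : Submodule O M)
    (hW : ∀ g, ∀ x ∈ W, ρ g x ∈ W) (hr : Module.finrank O W = 2) : GaloisRepAdic O where
  V := W
  instFree := Module.free_of_finite_type_torsion_free'
  finrank_eq := hr
  ρ := subAction ρ W hW
  isAdicContinuous :=
    adicContinuous_of_injective hc W.subtype W.injective_subtype (fun _ _ => rfl)

variable {K : Type*} [Field K] [Algebra O K] [IsFractionRing O K]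
variable {V : Type*} [AddCommGroup V] [Module K V] [Module O V] [IsScalarTower O K V]
  [FiniteDimensional K V]

/-- A stable plane `W` in a `K`-space spanned by the image of a finite `O`-module with adically
continuous action comes from a `GaloisRepAdic O` lattice with the same characteristic
polynomials. -/
theorem exists_galoisRepAdic_of_plane {M : Type} [AddCommGroup M] [Module O M]
    [Module.Finite O M] (ρ : Γℚ →* Module.End O M) (hc : GaloisActionIsAdicContinuous O ρ)
    (τ : Γℚ →* Module.End K V) (f : M →ₗ[O] V) (heq : ∀ g m, f (ρ g m) = τ g (f m))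
    (hspan : Submodule.span K (Set.range f) = ⊤)
    (W : Submodule K V) (hW : ∀ g, ∀ x ∈ W, τ g x ∈ W) (hrank : Module.finrank K W = 2) :
    ∃ P : GaloisRepAdic O, ∃ i : P.V →ₗ[O] V,
      Function.Injective i ∧ (∀ g x, i (P.ρ g x) = τ g (i x)) ∧
      (∀ x, i x ∈ W) ∧ Submodule.span K (Set.range i) = W ∧
      (∀ g, (P.ρ g).charpoly.map (algebraMap O K) = (subAction τ W hW g).charpoly) ∧
      (∀ g, P.ρ g = 1 ↔ ∀ x ∈ W, τ g x = x) := by
  classical
  have : Module.IsTorsionFree O V := Module.IsTorsionFree.trans_faithfulSMul O K V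
  -- the preimage of the plane in `M`, and its image
  let M' : Submodule O M := (W.restrictScalars O).comap f
  have hM' : ∀ g, ∀ x ∈ M', ρ g x ∈ M' := fun g x hx => by
    show f (ρ g x) ∈ W
    rw [heq]
    exact hW g _ hx
  have hc' : GaloisActionIsAdicContinuous O (subAction ρ M' hM') :=
    adicContinuous_of_injective hc M'.subtype M'.injective_subtype (fun _ _ => rfl)
  let f' : M' →ₗ[O] V := f.comp M'.subtype
  have hker : ∀ g, LinearMap.ker f' ≤ (LinearMap.ker f').comap (subAction ρ M' hM' g) := by
    intro g x hx
    rw [LinearMap.mem_ker] at hx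
    show f' _ = 0
    show f (ρ g x.1) = 0
    rw [heq, show f x.1 = 0 from hx, map_zero]
  let ρN : Γℚ →* Module.End O (M' ⧸ LinearMap.ker f') :=
    { toFun := fun g => (LinearMap.ker f').mapQ (LinearMap.ker f') _ (hker g)
      map_one' := by
        refine Submodule.linearMap_qext _ (LinearMap.ext fun x => ?_)
        simp
      map_mul' := fun g h => by
        refine Submodule.linearMap_qext _ (LinearMap.ext fun x => ?_)
        simp }
  have hcN : GaloisActionIsAdicContinuous O ρN :=
    adicContinuous_of_surjective hc' (LinearMap.ker f').mkQ (Submodule.mkQ_surjective _)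
      (fun _ _ => rfl)
  let i : M' ⧸ LinearMap.ker f' →ₗ[O] V := (LinearMap.ker f').liftQ f' le_rfl
  have hi : Function.Injective i :=
    LinearMap.ker_eq_bot.mp (Submodule.ker_liftQ_eq_bot' _ _ rfl)
  have : Module.IsTorsionFree O (M' ⧸ LinearMap.ker f') :=
    hi.moduleIsTorsionFree i (fun _ _ => i.map_smul _ _)
  have hieq : ∀ g x, i (ρN g x) = τ g (i x) := by
    intro g x
    induction x using Submodule.Quotient.induction_on with
    | _ x => exact heq g x.1
  have hiW : ∀ x, i x ∈ W := by
    intro x
    induction x using Submodule.Quotient.induction_on with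
    | _ x => exact x.2
  -- spanning
  have hmul : ∀ v : V, ∃ a : O, a ≠ 0 ∧ a • v ∈ LinearMap.range f := by
    intro v
    have hv : v ∈ Submodule.span K (Set.range f) := by rw [hspan]; trivial
    induction hv using Submodule.span_induction with
    | mem x hx => exact ⟨1, one_ne_zero, by rw [one_smul]; exact hx⟩
    | zero => exact ⟨1, one_ne_zero, by simp⟩
    | add x y _ _ hx hy =>
      obtain ⟨a, ha, hax⟩ := hx
      obtain ⟨b, hb, hby⟩ := hy
      refine ⟨a * b, mul_ne_zero ha hb, ?_⟩
      rw [smul_add]
      refine add_mem ?_ ?_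
      · rw [mul_comm, mul_smul]; exact Submodule.smul_mem _ b hax
      · rw [mul_smul]; exact Submodule.smul_mem _ a hby
    | smul c x _ hx =>
      obtain ⟨a, ha, hax⟩ := hx
      obtain ⟨⟨b, hb⟩, c', hc'⟩ := IsLocalization.exists_integer_multiple (nonZeroDivisors O) c
      refine ⟨a * b, mul_ne_zero ha (nonZeroDivisors.ne_zero hb), ?_⟩
      have : (a * b) • c • x = c' • a • x := by
        rw [← algebraMap_smul K (a * b), ← algebraMap_smul K c', ← algebraMap_smul K a, smul_smul,
          smul_smul, map_mul, hc', Algebra.smul_def]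
        congr 1
        ring
      rw [this]
      exact Submodule.smul_mem _ c' hax
  have hspanW : Submodule.span K (Set.range i) = W := by
    refine le_antisymm (Submodule.span_le.mpr (Set.range_subset_iff.mpr hiW)) fun w hw => ?_
    obtain ⟨a, ha, m, hm⟩ := hmul w
    have hmM' : m ∈ M' := by
      show f m ∈ W
      rw [hm, ← algebraMap_smul K a]
      exact W.smul_mem _ hw
    have h1 : algebraMap O K a • w ∈ Submodule.span K (Set.range i) :=
      Submodule.subset_span ⟨Submodule.Quotient.mk ⟨m, hmM'⟩, by rw [algebraMap_smul]; exact hm⟩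
    rw [← inv_smul_smul₀ (IsFractionRing.to_map_ne_zero_of_mem_nonZeroDivisors
      (mem_nonZeroDivisors_of_ne_zero ha) (K := K)) w]
    exact Submodule.smul_mem _ _ h1
  -- basis
  let b := Module.Free.chooseBasis O (M' ⧸ LinearMap.ker f')
  let v : Module.Free.ChooseBasisIndex O (M' ⧸ LinearMap.ker f') → W :=
    fun j => ⟨i (b j), hiW _⟩
  have hvi : LinearIndependent K v := by
    refine LinearIndependent.of_comp W.subtype ?_
    rw [← LinearIndependent.iff_fractionRing (R := O)]
    exact b.linearIndependent.map' i (LinearMap.ker_eq_bot.mpr hi)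
  have hvs : ⊤ ≤ Submodule.span K (Set.range v) := by
    rintro ⟨w, hw⟩ -
    rw [← Submodule.apply_mem_span_image_iff_mem_span W.injective_subtype, ← Set.range_comp]
    rw [← hspanW] at hw
    refine Submodule.span_le.mpr ?_ hw
    rintro _ ⟨x, rfl⟩
    rw [← b.sum_repr x, map_sum]
    refine Submodule.sum_mem _ fun j _ => ?_
    rw [map_smul, ← algebraMap_smul K]
    exact Submodule.smul_mem _ _ (Submodule.subset_span ⟨j, rfl⟩)
  let B := Module.Basis.mk hvi hvs
  have hrk : Module.finrank O (M' ⧸ LinearMap.ker f') = 2 := by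
    rw [Module.finrank_eq_card_basis b, ← Module.finrank_eq_card_basis B, hrank]
  let P : GaloisRepAdic O :=
    { V := M' ⧸ LinearMap.ker f'
      instFree := inferInstance
      finrank_eq := hrk
      ρ := ρN
      isAdicContinuous := hcN }
  refine ⟨P, i, hi, hieq, hiW, hspanW, fun g => ?_, fun g => ?_⟩
  · have hrepr : ∀ (x : M' ⧸ LinearMap.ker f') k,
        B.repr ⟨i x, hiW x⟩ k = algebraMap O K (b.repr x k) := by
      intro x k
      have : (⟨i x, hiW x⟩ : W) = ∑ j, algebraMap O K (b.repr x j) • B j := by
        apply Subtype.ext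
        simp only [B, v, Submodule.coe_sum, Submodule.coe_smul_of_tower, Module.Basis.coe_mk,
          algebraMap_smul, ← map_smul, ← map_sum, b.sum_repr]
      rw [this, B.repr_sum_self]
    show (ρN g).charpoly.map _ = _
    rw [← LinearMap.charpoly_toMatrix (ρN g) b, ← LinearMap.charpoly_toMatrix _ B,
      ← Matrix.charpoly_map]
    congr 1
    ext k l
    rw [Matrix.map_apply, LinearMap.toMatrix_apply, LinearMap.toMatrix_apply, ← hrepr]
    refine congrArg (fun w => B.repr w k) (Subtype.ext ?_)
    rw [show (subAction τ W hW g (B l)).1 = τ g (B l).1 from rfl]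
    simp [B, v, hieq]
  · show ρN g = 1 ↔ _
    constructor
    · intro h x hx
      rw [← hspanW] at hx
      induction hx using Submodule.span_induction with
      | mem y hy =>
        obtain ⟨z, rfl⟩ := hy
        rw [← hieq, h, Module.End.one_apply]
      | zero => simp
      | add x y _ _ hx hy => rw [map_add, hx, hy]
      | smul c x _ hx => rw [map_smul, hx]
    · intro h
      refine LinearMap.ext fun x => hi ?_
      rw [hieq, Module.End.one_apply, h _ (hiW x)]

/-- The special case in which `V` itself is two-dimensional. -/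
theorem exists_galoisRepAdic_of_lattice {M : Type} [AddCommGroup M] [Module O M]
    [Module.Finite O M] (ρ : Γℚ →* Module.End O M) (hc : GaloisActionIsAdicContinuous O ρ)
    (τ : Γℚ →* Module.End K V) (f : M →ₗ[O] V) (heq : ∀ g m, f (ρ g m) = τ g (f m))
    (hspan : Submodule.span K (Set.range f) = ⊤) (hrank : Module.finrank K V = 2) :
    ∃ P : GaloisRepAdic O, ∃ i : P.V →ₗ[O] V,
      Function.Injective i ∧ (∀ g x, i (P.ρ g x) = τ g (i x)) ∧
      Submodule.span K (Set.range i) = ⊤ ∧
      (∀ g, (P.ρ g).charpoly.map (algebraMap O K) = (τ g).charpoly) ∧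
      (∀ g, P.ρ g = 1 ↔ τ g = 1) := by
  obtain ⟨P, i, hi, hieq, -, hs, hcp, hone⟩ :=
    exists_galoisRepAdic_of_plane ρ hc τ f heq hspan ⊤ (fun _ _ _ => trivial)
      (by rw [finrank_top, hrank])
  refine ⟨P, i, hi, hieq, hs, fun g => ?_, fun g => ?_⟩
  · rw [hcp g, ← LinearEquiv.charpoly_conj Submodule.topEquiv]
    congr 1
  · rw [hone g]
    exact ⟨fun h => LinearMap.ext fun x => h x trivial, fun h x _ => by rw [h]; rfl⟩

end LatticeRep

end FLTA.RepTheory
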